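/-
S27lib / D4 / CharSub (helper6).
The subgroup `charSubG Γ n` of the characters of `Γ` of exponent `n` killing the parabolic and the
finite order elements, and the number of cusps `numCusps Γ` (the number of `⟨T⟩`-orbits on the
cosets of `Γ`).
-/
import Mathlib
import Fermat.Agent.S16lib.LG.Shimura

set_option autoImplicit false
set_option linter.unusedSectionVars false

noncomputable section

namespace Fermat.Agent.S27lib.D4

open Fermat.Agent.S16lib.LG
open scoped MatrixGroups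

variable (Γ : Subgroup SL(2, ℤ))

/-- the characters of `Γ` of exponent `n` killing the parabolic and the finite order elements -/
def charSubG (n : ℕ) : Subgroup (Γ →* ℂˣ) where
  carrier := {χ | (∀ γ, χ γ ^ n = 1) ∧ ∀ γ : Γ, IsParTor (γ : SL(2, ℤ)) → χ γ = 1}
  one_mem' := ⟨fun _ => by simp, fun _ _ => rfl⟩
  mul_mem' := by
    rintro χ χ' ⟨h1, h2⟩ ⟨h1', h2'⟩
    refine ⟨fun γ => ?_, fun γ hγ => ?_⟩
    · rw [MonoidHom.mul_apply, mul_pow, h1, h1', one_mul]
    · rw [MonoidHom.mul_apply, h2 γ hγ, h2' γ hγ, one_mul]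
  inv_mem' := by
    rintro χ ⟨h1, h2⟩
    refine ⟨fun γ => ?_, fun γ hγ => ?_⟩
    · rw [MonoidHom.inv_apply, inv_pow, h1, inv_one]
    · rw [MonoidHom.inv_apply, h2 γ hγ, inv_one]

lemma mem_charSubG {n : ℕ} {χ : Γ →* ℂˣ} :
    χ ∈ charSubG Γ n ↔ (∀ γ, χ γ ^ n = 1) ∧
      ∀ γ : Γ, IsParTor (γ : SL(2, ℤ)) → χ γ = 1 := Iff.rfl

/-- the number of cusps of `Γ` -/
def numCusps : ℕ :=
  Nat.card (MulAction.orbitRel.Quotient (Subgroup.zpowers ModularGroup.T) (SL(2, ℤ) ⧸ Γ))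

end Fermat.Agent.S27lib.D4
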