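/-
S27lib / D4 / Curve (helper6).
The analytic function field `FanG Γ = Frac (WH0 Γ)` of a finite index subgroup `Γ ≤ SL(2,ℤ)` as a
Prelude curve over `ℂ` (`RRgen.isCurveOfGenus`), its places in terms of the two charts and the
divisibility predicate `NDivF n f` ("the divisor of `f` is divisible by `n`").
Port of `S29lib/K3/Curve.lean` from `Γ₀(N)` to a general `Γ`.
-/
import Mathlib
import Fermat.Agent.S18lib.RRgen.Main
import Fermat.Agent.ProgramR.Analytic.WH0Dedekind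
import Fermat.Agent.ProgramR.Analytic.Division
import Fermat.Agent.ProgramR.CuspLocal.InftyOrbit

set_option autoImplicit false
set_option linter.unusedSectionVars false

noncomputable section

namespace Fermat.Agent.S27lib.D4

open Fermat.Agent.ProgramR Fermat.Agent.ProgramR.RR Fermat.Agent.ProgramR.Alg
open Fermat.Agent.S18lib AlgebraicCurve IsDedekindDomain UpperHalfPlane
open scoped MatrixGroups

variable (Γ : Subgroup SL(2, ℤ)) [Fintype (SL(2, ℤ) ⧸ Γ)]

/-- the finite chart `B_Γ = WH0 Γ` -/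
abbrev BG : Type := ↥(WH0 Γ)

/-- the analytic function field of `X(Γ)` over `ℂ` -/
abbrev FanG : Type := FF ℂ (BG Γ)

/-- the chart at infinity -/
abbrev BGInf : Subalgebra (Ainf ℂ) (FanG Γ) := Binf ℂ (BG Γ)

instance isScalarTower_C_Ainf_FanG : IsScalarTower ℂ (Ainf ℂ) (FanG Γ) :=
  IsScalarTower.of_algebraMap_eq fun a => by
    rw [IsScalarTower.algebraMap_apply ℂ (RatFunc ℂ) (FanG Γ)]
    rfl

instance algebraBGInf : Algebra ℂ (BGInf Γ) := Subalgebra.algebra' (BGInf Γ)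

instance isScalarTower_C_BGInf_FanG : IsScalarTower ℂ (BGInf Γ) (FanG Γ) :=
  IsScalarTower.of_algebraMap_eq fun _ => rfl

/-- the genus of the analytic curve -/
def genusG : ℕ := RRgen.genus ℂ (FanG Γ) (BG Γ) (BGInf Γ)

/-- **the analytic function field is a Prelude curve** -/
theorem isCurveG : IsCurveOfGenus ℂ (FanG Γ) (genusG Γ) :=
  RRgen.isCurveOfGenus ℂ (FanG Γ) (BG Γ) (BGInf Γ)

/-- the place of a prime of the finite chart -/
abbrev plFinG (P : HeightOneSpectrum (BG Γ)) : Place ℂ (FanG Γ) :=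
  RRgen.placeFin ℂ (FanG Γ) (BG Γ) P

/-- the place of a prime of the chart at infinity -/
abbrev plInfG (Q : HeightOneSpectrum (BGInf Γ)) : Place ℂ (FanG Γ) :=
  RRgen.placeInf ℂ (FanG Γ) (BGInf Γ) Q

lemma ord_plFinG (P : HeightOneSpectrum (BG Γ)) (f : FanG Γ) : (plFinG Γ P).ord f = ordV P f :=
  RRgen.ord_placeFin ℂ (FanG Γ) (BG Γ) P f

lemma ord_plInfG (Q : HeightOneSpectrum (BGInf Γ)) (f : FanG Γ) :
    (plInfG Γ Q).ord f = ordV Q f :=
  RRgen.ord_placeInf ℂ (FanG Γ) (BGInf Γ) Q f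

lemma exists_plFinG_or_plInfG (v : Place ℂ (FanG Γ)) :
    (∃ P, plFinG Γ P = v) ∨ (∃ Q, plInfG Γ Q = v) :=
  RRgen.exists_placeFin_or_placeInf ℂ (FanG Γ) (BG Γ) (BGInf Γ) v

/-- the image of `G ∈ B_Γ` in the function field -/
abbrev toFanG (G : BG Γ) : FanG Γ := algebraMap (BG Γ) (FanG Γ) G

lemma toFanG_ne_zero {G : BG Γ} (hG : G ≠ 0) : toFanG Γ G ≠ 0 := fun h =>
  hG (IsFractionRing.injective (BG Γ) (FanG Γ) (h.trans (map_zero _).symm))

/-- **the divisor of `f` is divisible by `n`** -/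
def NDivFG (n : ℕ) (f : FanG Γ) : Prop := ∀ v : Place ℂ (FanG Γ), (n : ℤ) ∣ v.ord f

/-- the divisor of `G ∈ B_Γ` is divisible by `n` -/
def NDivG (n : ℕ) (G : BG Γ) : Prop := NDivFG Γ n (toFanG Γ G)

lemma nDivFG_iff (n : ℕ) (f : FanG Γ) :
    NDivFG Γ n f ↔ (∀ P : HeightOneSpectrum (BG Γ), (n : ℤ) ∣ ordV P f) ∧
      (∀ Q : HeightOneSpectrum (BGInf Γ), (n : ℤ) ∣ ordV Q f) := by
  constructor
  · intro h
    refine ⟨fun P => ?_, fun Q => ?_⟩
    · rw [← ord_plFinG]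
      exact h _
    · rw [← ord_plInfG]
      exact h _
  · rintro ⟨h1, h2⟩ v
    rcases exists_plFinG_or_plInfG Γ v with ⟨P, rfl⟩ | ⟨Q, rfl⟩
    · rw [ord_plFinG]
      exact h1 P
    · rw [ord_plInfG]
      exact h2 Q

end Fermat.Agent.S27lib.D4
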