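/-
S27lib / D4 / Width (helper6).
Widths of the cusps of a finite index subgroup `Γ ≤ SL(2,ℤ)`: the width of the left coset
`x = g Γ` is the size of its `⟨T⟩`-orbit, i.e. the least `w > 0` with `g⁻¹ T^w g ∈ Γ`.  All widths
divide the uniform exponent `cuspM Γ` (the exponent of the permutation group of the cosets).
Port of `ProgramR/CuspLocal/Width.lean` from `Γ₀(N)` to a general `Γ`.
-/
import Mathlib

set_option autoImplicit false
set_option linter.unusedSectionVars false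

namespace Fermat.Agent.S27lib.D4

open Matrix Matrix.SpecialLinearGroup
open scoped MatrixGroups ModularGroup

variable (Γ : Subgroup SL(2, ℤ)) [Fintype (SL(2, ℤ) ⧸ Γ)]

/-- a uniform exponent: `T ^ cuspM Γ` fixes every left coset of `Γ` -/
noncomputable def cuspM : ℕ := Monoid.exponent (Equiv.Perm (SL(2, ℤ) ⧸ Γ))

instance neZero_cuspM : NeZero (cuspM Γ) := ⟨Monoid.exponent_ne_zero_of_finite⟩

theorem cuspM_pos : 0 < cuspM Γ := Nat.pos_of_ne_zero (NeZero.ne _)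

/-- `g ^ M` fixes every left coset of `Γ`. -/
theorem pow_cuspM_smul (g : SL(2, ℤ)) (x : SL(2, ℤ) ⧸ Γ) : (g ^ cuspM Γ) • x = x := by
  have h := Monoid.pow_exponent_eq_one (MulAction.toPermHom SL(2, ℤ) (SL(2, ℤ) ⧸ Γ) g)
  rw [← map_pow] at h
  have h2 := congrArg (fun σ : Equiv.Perm (SL(2, ℤ) ⧸ Γ) => σ x) h
  unfold cuspM
  simpa using h2

/-- `T^M` fixes every left coset of `Γ`. -/
theorem T_zpow_M_smul_mk (g : SL(2, ℤ)) :
    (ModularGroup.T ^ (cuspM Γ : ℤ)) • (QuotientGroup.mk g : SL(2, ℤ) ⧸ Γ) =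
      QuotientGroup.mk g := by
  rw [zpow_natCast]
  exact pow_cuspM_smul Γ _ _

theorem conj_T_zpow_M_mem (g : SL(2, ℤ)) :
    g⁻¹ * (ModularGroup.T ^ (cuspM Γ : ℤ) * g) ∈ Γ := by
  have h := T_zpow_M_smul_mk Γ g
  rw [MulAction.Quotient.smul_mk, smul_eq_mul, eq_comm, QuotientGroup.eq] at h
  exact h

/-- `T^w • (g Γ) = g Γ` iff `g⁻¹ T^w g ∈ Γ`. -/
theorem T_zpow_smul_mk_eq_iffG (g : SL(2, ℤ)) (w : ℤ) :
    (ModularGroup.T ^ w) • (QuotientGroup.mk g : SL(2, ℤ) ⧸ Γ) = QuotientGroup.mk g ↔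
      g⁻¹ * (ModularGroup.T ^ w * g) ∈ Γ := by
  rw [MulAction.Quotient.smul_mk, smul_eq_mul, eq_comm, QuotientGroup.eq]

/-- The width of the cusp attached to a left coset of `Γ`. -/
noncomputable def widthG (x : SL(2, ℤ) ⧸ Γ) : ℕ := MulAction.period ModularGroup.T x

theorem T_pow_widthG_smul (x : SL(2, ℤ) ⧸ Γ) : ModularGroup.T ^ (widthG Γ x) • x = x :=
  MulAction.pow_period_smul _ _

theorem T_zpow_smul_eq_iff_widthG_dvd (x : SL(2, ℤ) ⧸ Γ) (k : ℤ) :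
    ModularGroup.T ^ k • x = x ↔ (widthG Γ x : ℤ) ∣ k :=
  MulAction.zpow_smul_eq_iff_period_dvd

theorem widthG_dvd (x : SL(2, ℤ) ⧸ Γ) : widthG Γ x ∣ cuspM Γ := by
  induction x using QuotientGroup.induction_on with
  | H g =>
    have h := (T_zpow_smul_eq_iff_widthG_dvd Γ (QuotientGroup.mk g) (cuspM Γ : ℤ)).mp
      (T_zpow_M_smul_mk Γ g)
    exact Int.natCast_dvd_natCast.mp h

theorem widthG_pos (x : SL(2, ℤ) ⧸ Γ) : 0 < widthG Γ x :=
  Nat.pos_of_dvd_of_pos (widthG_dvd Γ x) (cuspM_pos Γ)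

theorem conj_T_zpow_widthG_mem (g : SL(2, ℤ)) :
    g⁻¹ * (ModularGroup.T ^ ((widthG Γ (QuotientGroup.mk g) : ℕ) : ℤ) * g) ∈ Γ := by
  rw [← T_zpow_smul_mk_eq_iffG, zpow_natCast]
  exact T_pow_widthG_smul Γ _

theorem widthG_T_zpow_smul (x : SL(2, ℤ) ⧸ Γ) (k : ℤ) :
    widthG Γ (ModularGroup.T ^ k • x) = widthG Γ x := by
  apply Nat.dvd_antisymm
  · have h : ModularGroup.T ^ (widthG Γ x : ℤ) • (ModularGroup.T ^ k • x) =
        ModularGroup.T ^ k • x := by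
      rw [smul_smul, ← _root_.zpow_add, add_comm, _root_.zpow_add, ← smul_smul, zpow_natCast,
        T_pow_widthG_smul]
    exact Int.natCast_dvd_natCast.mp ((T_zpow_smul_eq_iff_widthG_dvd Γ _ _).mp h)
  · have h : ModularGroup.T ^ (widthG Γ (ModularGroup.T ^ k • x) : ℤ) • x = x := by
      have h1 := T_pow_widthG_smul Γ (ModularGroup.T ^ k • x)
      rw [← zpow_natCast, smul_smul, ← _root_.zpow_add, add_comm, _root_.zpow_add, ← smul_smul] at h1
      exact smul_left_cancel _ h1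
    exact Int.natCast_dvd_natCast.mp ((T_zpow_smul_eq_iff_widthG_dvd Γ _ _).mp h)

end Fermat.Agent.S27lib.D4
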