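/-
S27lib / D4 / Translate (helper6).
Expansions of weakly holomorphic `Γ`-invariant functions at the cusps, for a finite index subgroup
`Γ ≤ SL(2,ℤ)`: for `h ∈ WH0 Γ` and `g ∈ SL(2,ℤ)` the function `z ↦ h (g⁻¹ • z)` is holomorphic,
`M`-periodic (`M = cuspM Γ`) and meromorphic at `i∞`; its Laurent expansion in
`q_M = exp(2πiz/M)` defines an injective ring homomorphism `cuspExpG Γ g : WH0 Γ →+* ℂ((q_M))`
which only depends on the left coset `g Γ`.
Port of the section `CuspExp` of `ProgramR/CuspLocal/Translate.lean`.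
-/
import Mathlib
import Fermat.Agent.ProgramR.CuspLocal.Translate
import Fermat.Agent.S27lib.D4.Width

set_option autoImplicit false
set_option linter.unusedSectionVars false

noncomputable section

open Complex Filter Function
open UpperHalfPlane hiding I
open Matrix Matrix.SpecialLinearGroup
open scoped Real Topology Manifold MatrixGroups ModularGroup

namespace Fermat.Agent.S27lib.D4

open Fermat.Agent.ProgramR Fermat.Agent.ProgramR.CuspLocal

variable (Γ : Subgroup SL(2, ℤ)) [Fintype (SL(2, ℤ) ⧸ Γ)]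

lemma natCast_pos_realG : (0 : ℝ) < (cuspM Γ : ℝ) := Nat.cast_pos.mpr (cuspM_pos Γ)

/-- Translation by `g⁻¹` as a ring homomorphism into the ring of `M`-periodic holomorphic
functions meromorphic at `i∞`. -/
def translateHomG (g : SL(2, ℤ)) :
    ↥(WH0 Γ) →+* ↥(QExp.merRing (cuspM Γ : ℝ) (natCast_pos_realG Γ)) where
  toFun h := ⟨slTranslate g h.1,
    exists_isMeroAtInfty_slTranslate (mem_WH0.mp h.2) g (cuspM_pos Γ) (conj_T_zpow_M_mem Γ g)⟩
  map_one' := rfl
  map_mul' _ _ := rfl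
  map_zero' := rfl
  map_add' _ _ := rfl

@[simp] lemma coe_translateHomG (g : SL(2, ℤ)) (h : ↥(WH0 Γ)) :
    ((translateHomG Γ g h : ↥(QExp.merRing (cuspM Γ : ℝ) (natCast_pos_realG Γ))) : ℍ → ℂ) =
      slTranslate g h.1 := rfl

lemma translateHomG_injective (g : SL(2, ℤ)) : Function.Injective (translateHomG Γ g) := by
  intro h h' e
  apply Subtype.ext
  funext z
  have := congrFun (congrArg Subtype.val e) (g • z)
  simpa using this

/-- The expansion of `h ∈ WH0 Γ` at the cusp `g⁻¹ ∞`, as a Laurent series in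
`q_M = exp(2πiz/M)`. -/
def cuspExpG (g : SL(2, ℤ)) : ↥(WH0 Γ) →+* LaurentSeries ℂ :=
  (QExp.laurentExpHom (cuspM Γ : ℝ) (natCast_pos_realG Γ)).comp (translateHomG Γ g)

lemma cuspExpG_apply (g : SL(2, ℤ)) (h : ↥(WH0 Γ)) :
    cuspExpG Γ g h = QExp.laurentExp (cuspM Γ : ℝ) (slTranslate g h.1) := rfl

lemma cuspExpG_injective (g : SL(2, ℤ)) : Function.Injective (cuspExpG Γ g) :=
  (QExp.laurentExpHom_injective (cuspM Γ : ℝ) (natCast_pos_realG Γ)).comp
    (translateHomG_injective Γ g)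

/-- The expansion only depends on the left coset `g Γ`. -/
lemma cuspExpG_mul_right (g : SL(2, ℤ)) {γ : SL(2, ℤ)} (hγ : γ ∈ Γ) :
    cuspExpG Γ (g * γ) = cuspExpG Γ g := by
  ext1 h
  rw [cuspExpG_apply, cuspExpG_apply, slTranslate_mul_right (mem_WH0.mp h.2) g hγ]

lemma cuspExpG_eq_of_mk_eq {g g' : SL(2, ℤ)}
    (e : (QuotientGroup.mk g : SL(2, ℤ) ⧸ Γ) = QuotientGroup.mk g') :
    cuspExpG Γ g = cuspExpG Γ g' := by
  have h := QuotientGroup.eq.mp e
  have : g' = g * (g⁻¹ * g') := by group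
  rw [this, cuspExpG_mul_right Γ g h]

/-- Constants expand to constants. -/
lemma cuspExpG_algebraMap (g : SL(2, ℤ)) (c : ℂ) :
    cuspExpG Γ g (algebraMap ℂ ↥(WH0 Γ) c) = HahnSeries.C c := by
  rw [cuspExpG_apply]
  have : slTranslate g (algebraMap ℂ ↥(WH0 Γ) c : ↥(WH0 Γ)).1 = fun _ => c := by
    funext z
    rfl
  rw [this, QExp.laurentExp_const (natCast_pos_realG Γ)]

end Fermat.Agent.S27lib.D4
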