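/-
S27lib / D4 / Cusp (helper5; port of S29lib/K3/Cusp (helper6) to a general `Γ`).  (K3b, cusps)
For a root datum `(y, χ)` of `G ∈ WH0 Γ`, `g ∈ SL(2,ℤ)` and `s ∈ ℤ` with
`π = g⁻¹ T^s g ∈ Γ`:   `χ(π) = exp(2πi s / (nM)) ^ ord_{q_M}(G ∘ g⁻¹)`, `M = cuspM Γ`.
-/
import Mathlib
import Fermat.Agent.ProgramR.CuspLocal.CuspExp
import Fermat.Agent.ProgramR.QExp.Affine
import Fermat.Agent.S29lib.K3.Invariant
import Fermat.Agent.S29lib.K3.Cusp
import Fermat.Agent.S27lib.D4.RootData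
import Fermat.Agent.S27lib.D4.Translate

set_option autoImplicit false
set_option linter.unusedSectionVars false

noncomputable section

namespace Fermat.Agent.S27lib.D4

open Fermat.Agent.ProgramR Fermat.Agent.ProgramR.QExp Fermat.Agent.ProgramR.CuspLocal
open Fermat.Agent.S29lib.K3
open UpperHalfPlane Function
open scoped MatrixGroups Manifold

local notation "𝕢" => Periodic.qParam

namespace RootDataG

variable {Γ : Subgroup SL(2, ℤ)} [Fintype (SL(2, ℤ) ⧸ Γ)] {n : ℕ} {G : ↥(WH0 Γ)}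
  (R : RootDataG Γ n G)

/-- the translate `z ↦ y (g⁻¹ z)` of the root -/
def trans (g : SL(2, ℤ)) : ℍ → ℂ := slTranslate g (R.y : ℍ → ℂ)

lemma trans_pow (g : SL(2, ℤ)) (z : ℍ) : R.trans g z ^ n = slTranslate g G.1 z := by
  unfold trans
  rw [slTranslate_apply, slTranslate_apply, R.pow_apply]

lemma mdiff_trans (g : SL(2, ℤ)) : MDiff (R.trans g) :=
  mdifferentiable_slTranslate g R.y.2

/-- the transformation of the translate under the stabiliser of the cusp -/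
lemma trans_vadd (g : SL(2, ℤ)) (s : ℤ) (hπ : g⁻¹ * (ModularGroup.T ^ s * g) ∈ Γ)
    (z : ℍ) : R.trans g ((s : ℝ) +ᵥ z) = ((R.χ ⟨_, hπ⟩ : ℂˣ) : ℂ) * R.trans g z := by
  have h1 : g⁻¹ • ((s : ℝ) +ᵥ z) = (g⁻¹ * (ModularGroup.T ^ s * g)) • (g⁻¹ • z) := by
    rw [← modular_T_zpow_smul, mul_smul, mul_smul, smul_inv_smul]
  unfold trans
  rw [slTranslate_apply, h1]
  exact R.smul_eq ⟨_, hπ⟩ _

/-- iterating the translation by `M = cuspM Γ` -/
lemma trans_vadd_mul_M (g : SL(2, ℤ)) (k : ℕ) (z : ℍ) :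
    R.trans g (((k : ℝ) * (cuspM Γ : ℝ)) +ᵥ z) =
      ((R.χ ⟨_, conj_T_zpow_M_mem Γ g⟩ : ℂˣ) : ℂ) ^ k * R.trans g z := by
  induction k with
  | zero => simp
  | succ k ih =>
    have e : (((k + 1 : ℕ) : ℝ) * (cuspM Γ : ℝ)) +ᵥ z =
        ((cuspM Γ : ℤ) : ℝ) +ᵥ (((k : ℝ) * (cuspM Γ : ℝ)) +ᵥ z) := by
      rw [vadd_vadd]
      congr 1
      push_cast
      ring
    rw [e, R.trans_vadd g (cuspM Γ : ℤ) (conj_T_zpow_M_mem Γ g), ih, pow_succ]
    ring

/-- the translate has period `nM` -/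
lemma trans_periodic (hG : G ≠ 0) (g : SL(2, ℤ)) :
    Periodic (R.trans g ∘ ofComplex) (((n : ℝ) * (cuspM Γ : ℝ) : ℝ) : ℂ) := by
  apply periodic_comp_ofComplex_of_vadd
  intro τ
  rw [R.trans_vadd_mul_M g n τ, ← Units.val_pow_eq_pow_val, R.χ_pow hG, Units.val_one, one_mul]

/-- the translate is meromorphic at `i∞` with respect to the period `nM` -/
lemma exists_isMeroAtInfty_trans (hG : G ≠ 0) (hn : 0 < n) (g : SL(2, ℤ)) :
    ∃ m, IsMeroAtInfty ((n : ℝ) * (cuspM Γ : ℝ)) m (R.trans g) := by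
  obtain ⟨m, hm⟩ := exists_isMeroAtInfty_slTranslate (mem_WH0.mp G.2) g (cuspM_pos Γ)
    (conj_T_zpow_M_mem Γ g)
  refine ⟨m, R.mdiff_trans g, R.trans_periodic hG g, ?_⟩
  apply isBoundedAtImInfty_of_pow hn
  have e : (fun z : ℍ => (qPow ((n : ℝ) * (cuspM Γ : ℝ)) m * R.trans g) z ^ n) =
      qPow (cuspM Γ : ℝ) m * slTranslate g G.1 := by
    funext z
    simp only [Pi.mul_apply, qPow_apply]
    rw [mul_pow, R.trans_pow, ← pow_mul, mul_comm m n, pow_mul,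
      ← qParam_eq_pow_qParam_mul (cuspM Γ : ℝ) (natCast_pos_realG Γ).ne' n hn.ne']
  rw [e]
  exact hm.bdd

/-- **cusp character formula** -/
theorem χ_cusp (hG : G ≠ 0) (hn : 0 < n) (g : SL(2, ℤ)) (s : ℤ)
    (hπ : g⁻¹ * (ModularGroup.T ^ s * g) ∈ Γ) :
    ((R.χ ⟨_, hπ⟩ : ℂˣ) : ℂ) =
      twistFactor ((n : ℝ) * (cuspM Γ : ℝ)) (s : ℝ) ^ (cuspExpG Γ g G).order := by
  have : NeZero n := ⟨hn.ne'⟩
  have hN : (0 : ℝ) < (cuspM Γ : ℝ) := natCast_pos_realG Γ
  have hh : (0 : ℝ) < (n : ℝ) * (cuspM Γ : ℝ) := mul_pos (by exact_mod_cast hn) hN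
  obtain ⟨m, hm⟩ := R.exists_isMeroAtInfty_trans hG hn g
  obtain ⟨m', hm'⟩ := exists_isMeroAtInfty_slTranslate (mem_WH0.mp G.2) g (cuspM_pos Γ)
    (conj_T_zpow_M_mem Γ g)
  set H : ℍ → ℂ := R.trans g with hH
  set L : LaurentSeries ℂ := laurentExp ((n : ℝ) * (cuspM Γ : ℝ)) H with hL
  -- `L ^ n` is the expansion of `G ∘ g⁻¹` with respect to the period `nM`
  have hpow : L ^ n = ModularCurve.qExpand ℂ n (cuspExpG Γ g G) := by
    have h1 : (⟨H, m, hm⟩ : merRing ((n : ℝ) * (cuspM Γ : ℝ)) hh) ^ n =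
        ⟨slTranslate g G.1, n * m', isMeroAtInfty_period_mul hN hn hm'⟩ := by
      apply Subtype.ext
      funext z
      simp only [SubmonoidClass.coe_pow, Pi.pow_apply]
      exact R.trans_pow g z
    have h2 := congrArg (laurentExpHom ((n : ℝ) * (cuspM Γ : ℝ)) hh) h1
    rw [map_pow, laurentExpHom_apply, laurentExpHom_apply] at h2
    rw [hL, h2, cuspExpG_apply]
    exact laurentExp_period_mul hN hm'
  have hG' : cuspExpG Γ g G ≠ 0 := fun h =>
    hG (cuspExpG_injective Γ g (h.trans (map_zero _).symm))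
  have hLn : L ^ n ≠ 0 := by
    rw [hpow]
    exact fun h => hG' (ModularCurve.qExpand_injective n (by rw [h, map_zero]))
  have hL0 : L ≠ 0 := fun h => hLn (by rw [h, zero_pow hn.ne'])
  have hord : L.order = (cuspExpG Γ g G).order := by
    have h1 : (L ^ n).order = n • L.order := HahnSeries.order_pow L n
    rw [hpow, order_qExpand_eq, nsmul_eq_mul] at h1
    have hn' : (n : ℤ) ≠ 0 := by exact_mod_cast hn.ne'
    exact (mul_left_cancel₀ hn' h1).symm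
  -- the translate by `s`
  set c : ℂ := ((R.χ ⟨_, hπ⟩ : ℂˣ) : ℂ) with hc
  have htw := laurentExp_coeff_of_vadd hh hm
    (f' := fun τ => H ((s : ℝ) +ᵥ τ))
    (by
      have : (fun τ : ℍ => H ((s : ℝ) +ᵥ τ)) = fun τ => c * H τ := by
        funext τ
        exact R.trans_vadd g s hπ τ
      rw [this]
      exact (mdifferentiable_const (c := c)).mul (R.mdiff_trans g))
    (s : ℝ) (fun τ => rfl)
  have hcH : (fun τ : ℍ => H ((s : ℝ) +ᵥ τ)) = (fun _ : ℍ => c) * H := by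
    funext τ
    exact R.trans_vadd g s hπ τ
  have hexp : laurentExp ((n : ℝ) * (cuspM Γ : ℝ)) (fun τ : ℍ => H ((s : ℝ) +ᵥ τ)) =
      HahnSeries.C c * L := by
    rw [hcH, laurentExp_mul hh (IsMeroAtInfty.of_isHolPerBdd (IsHolPerBdd.const _ c)) hm,
      laurentExp_const hh]
  have hcoeff := htw.2 L.order
  rw [hexp, HahnSeries.C_mul_eq_smul, HahnSeries.coeff_smul, smul_eq_mul] at hcoeff
  have hne : L.coeff L.order ≠ 0 := fun h => hL0 (HahnSeries.coeff_order_eq_zero.mp h)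
  rw [← hord]
  exact mul_right_cancel₀ hne hcoeff

end RootDataG

end Fermat.Agent.S27lib.D4
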