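/-
S27lib / D4 / GChart (helper6).
For a subgroup `Γ ≤ SL(2,ℤ)` of finite index such that the finite chart `WH0 Γ` has rank
`[SL(2,ℤ) : Γ]` over `ℂ[X]` (`X ↦ j`), the `SL(2,ℤ)`-translates of `WH0 Γ` over distinct cosets
are distinct (a primitive element has `[SL(2,ℤ) : Γ]` distinct conjugates), hence `WH0 Γ` carries
the `ChartData` of the finite-point dictionary.  Port of `ProgramR/Analytic/Gamma0Chart.lean`,
where the rank was computed via `j_N`; here the rank is a hypothesis.
-/
import Mathlib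
import Fermat.Agent.ProgramR.Analytic.WH0Dedekind
import Fermat.Agent.ProgramR.Analytic.Dictionary
import Fermat.Agent.ProgramR.Analytic.Division

set_option autoImplicit false
set_option linter.unusedSectionVars false

noncomputable section

namespace Fermat.Agent.S27lib.D4

open Fermat.Agent.ProgramR
open UpperHalfPlane Polynomial Module
open scoped Manifold MatrixGroups

attribute [local instance] FractionRing.liftAlgebra

variable (Γ : Subgroup SL(2, ℤ)) [Fintype (SL(2, ℤ) ⧸ Γ)]

/-- the hypotheses on `Γ` supplied by D3 (`Γ` = full stabiliser of the embedded field, so that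
`-1 ∈ Γ` and the rank is the index) and D2 (clean Belyi function: no elliptic points) -/
structure GammaHyp : Prop where
  neg : (-1 : SL(2, ℤ)) ∈ Γ
  rank : Module.finrank ℂ[X] (WH0 Γ) = Fintype.card (SL(2, ℤ) ⧸ Γ)
  free : ∀ γ ∈ Γ, ∀ z : ℍ, γ • z = z → γ = 1 ∨ γ = -1

variable {Γ}

/-- an integral primitive element of `Frac (WH0 Γ)` over `ℂ(X)` -/
lemma exists_primitive_WH0 :
    ∃ h : WH0 Γ, IntermediateField.adjoin RatC
      {algebraMap (WH0 Γ) (WH0.FunField Γ) h} = ⊤ := by
  obtain ⟨θ, hθ⟩ := Field.exists_primitive_element RatC (WH0.FunField Γ)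
  have halg : IsAlgebraic ℂ[X] θ := by
    have h1 : Algebra.IsAlgebraic ℂ[X] (WH0 Γ) := inferInstance
    have h2 : Algebra.IsAlgebraic ℂ[X] (WH0.FunField Γ) :=
      (IsFractionRing.isAlgebraic_iff' ℂ[X] (WH0 Γ) (WH0.FunField Γ)).1 h1
    exact h2.isAlgebraic θ
  obtain ⟨y, hy0, hy⟩ := halg.exists_integral_multiple
  obtain ⟨h, hh⟩ := IsIntegralClosure.isIntegral_iff (A := WH0 Γ).1 hy
  refine ⟨h, ?_⟩
  rw [hh]
  have hy' : algebraMap ℂ[X] RatC y ≠ 0 := fun h0 =>
    hy0 ((IsFractionRing.injective ℂ[X] RatC) (by rw [h0, map_zero]))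
  have hsm : y • θ = algebraMap ℂ[X] RatC y • θ := by
    rw [algebraMap_smul]
  rw [eq_top_iff, ← hθ, IntermediateField.adjoin_le_iff, Set.singleton_subset_iff]
  have h1 : y • θ ∈ IntermediateField.adjoin RatC {y • θ} :=
    IntermediateField.subset_adjoin _ _ rfl
  rw [hsm] at h1 ⊢
  have h2 := (IntermediateField.adjoin RatC {algebraMap ℂ[X] RatC y • θ}).smul_mem h1
    (x := (algebraMap ℂ[X] RatC y)⁻¹)
  rwa [smul_smul, inv_mul_cancel₀ hy', one_smul] at h2

/-- if the rank of `WH0 Γ` is the index, a primitive element has pairwise distinct conjugates -/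
theorem exists_conjFun_injective
    (hrank : Module.finrank ℂ[X] (WH0 Γ) = Fintype.card (SL(2, ℤ) ⧸ Γ)) :
    ∃ h : WH0 Γ, Function.Injective (WH0.conjFun h) := by
  classical
  obtain ⟨h, hprim⟩ := exists_primitive_WH0 (Γ := Γ)
  refine ⟨h, ?_⟩
  set θ : WH0.FunField Γ := algebraMap (WH0 Γ) (WH0.FunField Γ) h with hθ
  have hintθ : IsIntegral RatC θ := Algebra.IsIntegral.isIntegral θ
  have hdeg : (minpoly RatC θ).natDegree = Fintype.card (SL(2, ℤ) ⧸ Γ) := by
    rw [← IntermediateField.adjoin.finrank hintθ, hprim, IntermediateField.finrank_top',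
      ← WH0.finrank_eq_finrank_funField, hrank]
  obtain ⟨Q, hQ1, hQ2, hQ3⟩ := WH0.exists_monic_map_eq_conjPoly h
  have hQh : Polynomial.aeval h Q = 0 := by
    apply WH0.incl_injective Γ
    rw [map_zero, ← WH0.eval_incl_conjPoly h, ← hQ3, Polynomial.eval_map, Polynomial.aeval_def]
    have h1 := Polynomial.hom_eval₂ Q (algebraMap ℂ[X] (WH0 Γ)) (WH0.incl Γ).toRingHom h
    have h2 : (WH0.incl Γ).toRingHom.comp (algebraMap ℂ[X] (WH0 Γ)) =
        algebraMap ℂ[X] (WH0 (⊥ : Subgroup SL(2, ℤ))) :=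
      RingHom.ext (fun p => WH0.incl_algebraMap Γ p)
    rw [h2] at h1
    exact h1
  have hQθ : Polynomial.aeval θ (Q.map (algebraMap ℂ[X] RatC)) = 0 := by
    rw [Polynomial.aeval_map_algebraMap, hθ, Polynomial.aeval_algebraMap_apply, hQh, map_zero]
  have hQK : minpoly RatC θ = Q.map (algebraMap ℂ[X] RatC) := by
    symm
    apply Polynomial.eq_of_monic_of_dvd_of_natDegree_le (minpoly.monic hintθ) (hQ1.map _)
      (minpoly.dvd RatC θ hQθ)
    rw [hQ1.natDegree_map, hQ2, hdeg]
  have hsep : (Q.map (algebraMap ℂ[X] RatC)).Separable := by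
    rw [← hQK]
    exact Algebra.IsSeparable.isSeparable RatC θ
  -- pass to the fraction field of `WH0 ⊥`
  set B0 := WH0 (⊥ : Subgroup SL(2, ℤ)) with hB0
  set E := FractionRing B0 with hE
  set i : ℂ[X] →+* E := (algebraMap B0 E).comp (algebraMap ℂ[X] B0) with hi
  have hiinj : Function.Injective i :=
    (IsFractionRing.injective B0 E).comp (WH0.algebraMap_poly_injective _)
  set j : RatC →+* E := IsFractionRing.lift hiinj with hj
  have hji : j.comp (algebraMap ℂ[X] RatC) = i := by
    refine RingHom.ext fun p => ?_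
    rw [RingHom.comp_apply, hj, IsFractionRing.lift_algebraMap]
  have hsepE : (Q.map i).Separable := by
    have := hsep.map (f := j)
    rwa [Polynomial.map_map, hji] at this
  have hprod : Q.map i = ∏ x : SL(2, ℤ) ⧸ Γ, (X - C (algebraMap B0 E (WH0.conjFun h x))) := by
    rw [hi, ← Polynomial.map_map, hQ3, WH0.conjPoly, Polynomial.map_prod]
    simp
  rw [hprod, Polynomial.separable_prod_X_sub_C_iff] at hsepE
  intro x y hxy
  exact hsepE (congrArg (algebraMap B0 E) hxy)

variable (Γ)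

/-- **The chart data of `WH0 Γ` over `ℂ`** (the separation of the cosets comes from the rank). -/
def gChart (hrank : Module.finrank ℂ[X] (WH0 Γ) = Fintype.card (SL(2, ℤ) ⧸ Γ)) :
    ChartData ℂ (WH0 Γ) Γ where
  ι := RingHom.id ℂ
  ev := (WH0.toHol Γ).toRingHom
  ev_inj := WH0.toHol_injective Γ
  ev_C := by
    intro a
    apply Hol.ext
    intro z
    change (algebraMap ℂ[X] (WH0 Γ) (C a)).1 z = a
    rw [WH0.algebraMap_poly_apply, Polynomial.eval_C]
  ev_X := by
    apply Hol.ext
    intro z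
    change (algebraMap ℂ[X] (WH0 Γ) X).1 z = LevelOne.jInv z
    rw [WH0.algebraMap_poly_apply, Polynomial.eval_X]
  ev_inv := by
    intro s γ hγ
    apply Hol.ext
    intro z
    exact s.2.smul_eq γ hγ z
  sep := by
    intro g g' h
    obtain ⟨h₀, hinj⟩ := exists_conjFun_injective hrank
    have heq : WH0.conjFun h₀ (QuotientGroup.mk g) = WH0.conjFun h₀ (QuotientGroup.mk g') := by
      rw [WH0.conjFun_mk, WH0.conjFun_mk]
      apply Subtype.ext
      funext z
      have := congrArg (fun F : Hol => (F : ℍ → ℂ) z) (h h₀)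
      simpa using this
    exact QuotientGroup.eq.1 (hinj heq)

lemma gChart_ev (hrank : Module.finrank ℂ[X] (WH0 Γ) = Fintype.card (SL(2, ℤ) ⧸ Γ))
    (s : WH0 Γ) : (gChart Γ hrank).ev s = WH0.toHol Γ s := rfl

lemma gChart_card (hrank : Module.finrank ℂ[X] (WH0 Γ) = Fintype.card (SL(2, ℤ) ⧸ Γ)) :
    Fintype.card (SL(2, ℤ) ⧸ Γ) = Module.finrank ℂ[X] (WH0 Γ) := hrank.symm

end Fermat.Agent.S27lib.D4
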