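/-
S27lib / D4 / JExp (helper6).
The expansion of `j` at the cusps of `Γ`: in the parameter `q_M = exp(2πiz/M)`, `M = cuspM Γ`, the
function `j` has order exactly `-M` and leading coefficient one at every cusp.
Port of `ProgramR/CuspLocal/JExp.lean`.
-/
import Mathlib
import Fermat.Agent.ProgramR.CuspLocal.JExp
import Fermat.Agent.S27lib.D4.Translate

set_option autoImplicit false
set_option linter.unusedSectionVars false

noncomputable section

open Complex Filter Function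
open UpperHalfPlane hiding I
open Matrix Matrix.SpecialLinearGroup
open scoped Real Topology Manifold MatrixGroups ModularGroup

namespace Fermat.Agent.S27lib.D4

open Fermat.Agent.ProgramR Fermat.Agent.ProgramR.CuspLocal

variable (Γ : Subgroup SL(2, ℤ)) [Fintype (SL(2, ℤ) ⧸ Γ)]

/-- `j` as an element of `WH0 Γ`. -/
def jWH0G : ↥(WH0 Γ) := ⟨LevelOne.jInv, LevelOne.jInv_mem_WH0 Γ⟩

/-- The leading coefficient of `j` in `q_M` is at `q_M^{-M}` and equals one. -/
theorem cuspExpG_jInv_coeff (g : SL(2, ℤ)) :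
    (cuspExpG Γ g (jWH0G Γ)).coeff (-(cuspM Γ : ℤ)) = 1 := by
  have hm := isMeroAtInfty_jInv (cuspM Γ)
  have hb := hm.isHolPerBdd (natCast_pos_realG Γ)
  rw [cuspExpG_apply]
  show (QExp.laurentExp (cuspM Γ : ℝ) (slTranslate g LevelOne.jInv)).coeff (-(cuspM Γ : ℤ)) = 1
  rw [slTranslate_jInv, QExp.laurentExp_coeff (natCast_pos_realG Γ) hm, if_pos (by omega)]
  have h0 : (-(cuspM Γ : ℤ) + (cuspM Γ : ℤ)).toNat = 0 := by simp
  rw [h0, qExpansion_coeff_zero (natCast_pos_realG Γ) (hb.analyticAt (natCast_pos_realG Γ))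
    hb.periodic]
  exact (tendsto_qPow_mul_jInv (cuspM Γ)).limUnder_eq

theorem cuspExpG_jInv_coeff_of_lt (g : SL(2, ℤ)) {n : ℤ} (hn : n < -(cuspM Γ : ℤ)) :
    (cuspExpG Γ g (jWH0G Γ)).coeff n = 0 := by
  rw [cuspExpG_apply]
  show (QExp.laurentExp (cuspM Γ : ℝ) (slTranslate g LevelOne.jInv)).coeff n = 0
  rw [slTranslate_jInv]
  exact QExp.laurentExp_coeff_of_lt (natCast_pos_realG Γ) (isMeroAtInfty_jInv (cuspM Γ)) hn

/-- `j` has order exactly `-M` in `q_M` at every cusp. -/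
theorem cuspExpG_jInv_order (g : SL(2, ℤ)) :
    (cuspExpG Γ g (jWH0G Γ)).order = -(cuspM Γ : ℤ) := by
  have h1 : (cuspExpG Γ g (jWH0G Γ)).coeff (-(cuspM Γ : ℤ)) ≠ 0 := by
    rw [cuspExpG_jInv_coeff]
    exact one_ne_zero
  have hne : cuspExpG Γ g (jWH0G Γ) ≠ 0 := by
    intro h0
    rw [h0] at h1
    simp at h1
  apply le_antisymm (HahnSeries.order_le_of_coeff_ne_zero h1)
  by_contra hlt
  push Not at hlt
  exact hne (HahnSeries.coeff_order_eq_zero.mp (cuspExpG_jInv_coeff_of_lt Γ g hlt))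

lemma cuspExpG_jWH0G (g : SL(2, ℤ)) :
    cuspExpG Γ g (jWH0G Γ) = cuspExpG Γ 1 (jWH0G Γ) := by
  rw [cuspExpG_apply, cuspExpG_apply]
  show QExp.laurentExp (cuspM Γ : ℝ) (slTranslate g LevelOne.jInv) =
    QExp.laurentExp (cuspM Γ : ℝ) (slTranslate 1 LevelOne.jInv)
  rw [slTranslate_jInv, slTranslate_jInv]

end Fermat.Agent.S27lib.D4
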