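/-
S27lib / D4 / CuspExp (helper6).
Behaviour of the cusp expansions of `WH0 Γ` along `⟨T⟩`-orbits.
Port of `ProgramR/CuspLocal/CuspExp.lean`.
-/
import Mathlib
import Fermat.Agent.ProgramR.CuspLocal.CuspExp
import Fermat.Agent.S27lib.D4.Translate

set_option autoImplicit false
set_option linter.unusedSectionVars false

noncomputable section

open Complex Filter Function
open UpperHalfPlane hiding I
open Matrix Matrix.SpecialLinearGroup
open scoped Real Topology Manifold MatrixGroups ModularGroup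

namespace Fermat.Agent.S27lib.D4

open Fermat.Agent.ProgramR Fermat.Agent.ProgramR.CuspLocal

variable (Γ : Subgroup SL(2, ℤ)) [Fintype (SL(2, ℤ) ⧸ Γ)]

/-- Coefficients of the expansion at `T^k g`. -/
theorem cuspExpG_T_zpow_mul_coeff (g : SL(2, ℤ)) (k : ℤ) (h : ↥(WH0 Γ)) (n : ℤ) :
    (cuspExpG Γ (ModularGroup.T ^ k * g) h).coeff n =
      twistFactor (cuspM Γ : ℝ) (-(k : ℝ)) ^ n * (cuspExpG Γ g h).coeff n := by
  obtain ⟨m, hm⟩ := exists_isMeroAtInfty_slTranslate (mem_WH0.mp h.2) g (cuspM_pos Γ)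
    (conj_T_zpow_M_mem Γ g)
  have key := laurentExp_coeff_of_vadd (natCast_pos_realG Γ) hm
    (mdifferentiable_slTranslate (ModularGroup.T ^ k * g) (mem_WH0.mp h.2).mdiff) (-(k : ℝ))
    (fun τ => slTranslate_T_zpow_mul g k h.1 τ)
  rw [cuspExpG_apply, cuspExpG_apply]
  exact key.2 n

/-- The order of the expansion is constant along `⟨T⟩`-orbits. -/
theorem cuspExpG_T_zpow_mul_order (g : SL(2, ℤ)) (k : ℤ) (h : ↥(WH0 Γ)) :
    (cuspExpG Γ (ModularGroup.T ^ k * g) h).order = (cuspExpG Γ g h).order :=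
  order_eq_of_coeff_eq_mul (fun n => twistFactor (cuspM Γ : ℝ) (-(k : ℝ)) ^ n)
    (fun n => zpow_ne_zero n (twistFactor_ne_zero _ _)) (cuspExpG_T_zpow_mul_coeff Γ g k h)

/-- Support of the expansion: if `g⁻¹ T^w g ∈ Γ` then only the exponents `n` with
`M ∣ w n` occur. -/
theorem cuspExpG_coeff_eq_zero_of_not_dvd (g : SL(2, ℤ)) {w : ℤ}
    (hw : g⁻¹ * (ModularGroup.T ^ w * g) ∈ Γ) (h : ↥(WH0 Γ)) {n : ℤ}
    (hn : ¬ (cuspM Γ : ℤ) ∣ w * n) : (cuspExpG Γ g h).coeff n = 0 := by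
  have h1 := cuspExpG_T_zpow_mul_coeff Γ g w h n
  have h2 : cuspExpG Γ (ModularGroup.T ^ w * g) = cuspExpG Γ g := by
    have : ModularGroup.T ^ w * g = g * (g⁻¹ * (ModularGroup.T ^ w * g)) := by group
    rw [this, cuspExpG_mul_right Γ g hw]
  rw [h2] at h1
  have h3 : twistFactor (cuspM Γ : ℝ) (-(w : ℝ)) ^ n ≠ 1 :=
    fun h => hn ((twistFactor_zpow_eq_one_iff (cuspM Γ) w n).mp h)
  by_contra h4
  apply h3
  have h5 : (twistFactor (cuspM Γ : ℝ) (-(w : ℝ)) ^ n - 1) * (cuspExpG Γ g h).coeff n = 0 := by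
    rw [sub_mul, one_mul, ← h1, sub_self]
  rcases mul_eq_zero.mp h5 with h6 | h6
  · exact sub_eq_zero.mp h6
  · exact absurd h6 h4

/-- Support of the expansion in terms of the width `w` of the cusp: only exponents divisible by
`M / w` occur, i.e. the expansion is a Laurent series in `q_w = q_M^{M/w}`. -/
theorem cuspExpG_coeff_eq_zero_of_not_dvd_width (g : SL(2, ℤ)) (h : ↥(WH0 Γ)) {n : ℤ}
    (hn : ¬ ((cuspM Γ / widthG Γ (QuotientGroup.mk g) : ℕ) : ℤ) ∣ n) :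
    (cuspExpG Γ g h).coeff n = 0 := by
  set w := widthG Γ (QuotientGroup.mk g) with hwdef
  have hw : g⁻¹ * (ModularGroup.T ^ (w : ℤ) * g) ∈ Γ := conj_T_zpow_widthG_mem Γ g
  refine cuspExpG_coeff_eq_zero_of_not_dvd Γ g hw h ?_
  intro hdvd
  apply hn
  have hwN : w ∣ cuspM Γ := widthG_dvd Γ _
  have hwpos : 0 < w := widthG_pos Γ _
  obtain ⟨d, hd⟩ := hwN
  have hdiv : cuspM Γ / w = d := by rw [hd, Nat.mul_div_cancel_left d hwpos]
  rw [hdiv]
  have hcast : (cuspM Γ : ℤ) = (w : ℤ) * (d : ℤ) := by exact_mod_cast hd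
  rw [hcast] at hdvd
  exact (mul_dvd_mul_iff_left (by exact_mod_cast hwpos.ne')).mp hdvd

end Fermat.Agent.S27lib.D4
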