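/-
S27lib / D4 / Regular (helper6).
Weakly holomorphic `Γ`-invariant functions regular at all cusps are constant.
Port of `ProgramR/CuspLocal/Regular.lean`.
-/
import Mathlib
import Fermat.Agent.ProgramR.CuspLocal.Regular
import Fermat.Agent.S27lib.D4.CuspExp

set_option autoImplicit false
set_option linter.unusedSectionVars false

noncomputable section

open Complex Filter Function ModularForm
open UpperHalfPlane hiding I
open Matrix Matrix.SpecialLinearGroup OnePoint
open scoped Real Topology Manifold MatrixGroups ModularGroup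

namespace Fermat.Agent.S27lib.D4

open Fermat.Agent.ProgramR Fermat.Agent.ProgramR.CuspLocal

variable (Γ : Subgroup SL(2, ℤ)) [Fintype (SL(2, ℤ) ⧸ Γ)]

lemma finiteIndexG : Γ.FiniteIndex := Subgroup.finiteIndex_of_finite_quotient

/-- If the expansion at `g` has non-negative order then `h ∘ g⁻¹` is bounded at `i∞`. -/
theorem isBoundedAtImInfty_slTranslate_of_order_nonnegG (g : SL(2, ℤ))
    (h : ↥(WH0 Γ)) (hreg : 0 ≤ (cuspExpG Γ g h).order) :
    IsBoundedAtImInfty (slTranslate g h.1) := by
  obtain ⟨m, hm⟩ := exists_isMeroAtInfty_slTranslate (mem_WH0.mp h.2) g (cuspM_pos Γ)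
    (conj_T_zpow_M_mem Γ g)
  have h0 : QExp.IsMeroAtInfty (cuspM Γ : ℝ) 0 (slTranslate g h.1) := by
    refine QExp.isMeroAtInfty_of_coeff_eq_zero (natCast_pos_realG Γ) hm ?_
    intro n hn
    have hn' : n < (cuspExpG Γ g h).order := by
      simp only [Nat.cast_zero, neg_zero] at hn
      omega
    exact HahnSeries.coeff_eq_zero_of_lt_order hn'
  have := h0.bdd
  rwa [QExp.qPow_zero, one_mul] at this

/-- The weight zero modular form attached to a function regular at all cusps. -/
def regularFormG (h : ↥(WH0 Γ)) (hreg : ∀ g : SL(2, ℤ), 0 ≤ (cuspExpG Γ g h).order) :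
    ModularForm ((Γ : Subgroup SL(2, ℤ)) : Subgroup (GL (Fin 2) ℝ)) 0 where
  toFun := h.1
  slash_action_eq' := by
    rintro _ ⟨γ, hγ, rfl⟩
    show h.1 ∣[(0 : ℤ)] γ = h.1
    rw [slash_zero_eq_slTranslate]
    funext z
    rw [slTranslate_apply, inv_inv]
    exact (mem_WH0.mp h.2).smul_eq γ hγ z
  holo' := (mem_WH0.mp h.2).mdiff
  bdd_at_cusps' {c} hc := by
    have := finiteIndexG Γ
    rw [Subgroup.IsArithmetic.isCusp_iff_isCusp_SL2Z] at hc
    rw [isBoundedAt_iff_forall_SL2Z hc]
    intro γ _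
    rw [slash_zero_eq_slTranslate]
    exact isBoundedAtImInfty_slTranslate_of_order_nonnegG Γ γ⁻¹ h (hreg γ⁻¹)

/-- A weakly holomorphic `Γ`-invariant function which is regular at all cusps is constant. -/
theorem eq_const_of_forall_order_nonnegG (h : ↥(WH0 Γ))
    (hreg : ∀ g : SL(2, ℤ), 0 ≤ (cuspExpG Γ g h).order) :
    ∃ c : ℂ, h = algebraMap ℂ ↥(WH0 Γ) c := by
  have := finiteIndexG Γ
  obtain ⟨c, hc⟩ := ModularForm.eq_const_of_weight_zero (regularFormG Γ h hreg)
  refine ⟨c, Subtype.ext ?_⟩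
  funext z
  have := congrFun hc z
  exact this

end Fermat.Agent.S27lib.D4
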