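/-
S27lib / D4 / InfDict (helper6).
The dictionary at infinity for a finite index subgroup `Γ ≤ SL(2,ℤ)` whose finite chart
`B_Γ = WH0 Γ` has rank `[SL(2,ℤ) : Γ]` over `ℂ[X]`.  The cusp expansions `cuspExpG Γ g` form a
`LaurentFamily` indexed by `SL(2,ℤ) ⧸ Γ`, with `⟨T⟩` acting; hence

* `card_heightOneSpectrum_BGInf`: `#Spec Binf = numCusps Γ`;
* `order_cuspExpG`: `ord (cuspExpG Γ g a) = (M / width) * ordV P_g a`;
* `const_of_mem_range_of_mem_rangeG`: `B_Γ ∩ Binf = ℂ`.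
Port of `ProgramR/CuspLocal/{InftyDict,InftyFinal}.lean`.
-/
import Mathlib
import Fermat.Agent.ProgramR.CuspLocal.InftyOrbit
import Fermat.Agent.S27lib.D4.JExp
import Fermat.Agent.S27lib.D4.Regular
import Fermat.Agent.S27lib.D4.GChart
import Fermat.Agent.S27lib.D4.Curve
import Fermat.Agent.S27lib.D4.CharSub

set_option autoImplicit false
set_option linter.unusedSectionVars false
set_option linter.style.haveILetI false

noncomputable section

open Polynomial Module HahnSeries IsDedekindDomain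
open Matrix Matrix.SpecialLinearGroup
open scoped MatrixGroups ModularGroup

namespace Fermat.Agent.S27lib.D4

open Fermat.Agent.ProgramR Fermat.Agent.ProgramR.CuspLocal
open Fermat.Agent.ProgramR.RR Fermat.Agent.ProgramR.Alg

variable (Γ : Subgroup SL(2, ℤ)) [Fintype (SL(2, ℤ) ⧸ Γ)]

lemma algebraMap_X_eq_jWH0G : algebraMap ℂ[X] ↥(WH0 Γ) X = jWH0G Γ := by
  rw [WH0.algebraMap_poly, Polynomial.aeval_X]
  rfl

lemma cuspExpG_out_mk (g : SL(2, ℤ)) :
    cuspExpG Γ (QuotientGroup.mk g : SL(2, ℤ) ⧸ Γ).out = cuspExpG Γ g :=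
  cuspExpG_eq_of_mk_eq Γ (QuotientGroup.out_eq' _)

/-- the size of the `⟨T⟩`-orbit of a coset is its width. -/
lemma orbSize_zpowers_TG (x : SL(2, ℤ) ⧸ Γ) :
    CenterData.orbSize (Subgroup.zpowers ModularGroup.T) x = widthG Γ x := by
  have h := Nat.card_congr (MulAction.orbitZPowersEquiv ModularGroup.T x)
  rw [Nat.card_zmod] at h
  rw [CenterData.orbSize, widthG, MulAction.period_eq_minimalPeriod]
  exact h

variable (hrank : Module.finrank ℂ[X] (WH0 Γ) = Fintype.card (SL(2, ℤ) ⧸ Γ))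

include hrank in
/-- distinct cosets have distinct cusp expansions (via the conjugates of a primitive element). -/
lemma cuspExpG_sep (g g' : SL(2, ℤ)) (h : cuspExpG Γ g = cuspExpG Γ g') :
    (QuotientGroup.mk g : SL(2, ℤ) ⧸ Γ) = QuotientGroup.mk g' := by
  obtain ⟨h₀, hinj⟩ := exists_conjFun_injective hrank
  apply hinj
  have h1 : cuspExpG Γ g h₀ = cuspExpG Γ g' h₀ := by rw [h]
  have h2 : translateHomG Γ g h₀ = translateHomG Γ g' h₀ :=
    QExp.laurentExpHom_injective (cuspM Γ : ℝ) (natCast_pos_realG Γ) h1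
  rw [WH0.conjFun_mk, WH0.conjFun_mk]
  apply Subtype.ext
  funext z
  exact congrFun (congrArg Subtype.val h2) z

/-- the family of cusp expansions of `B_Γ`, indexed by the cosets of `Γ`. -/
def cuspFamilyG : LaurentFamily ℂ ↥(WH0 Γ) (SL(2, ℤ) ⧸ Γ) where
  e x := cuspExpG Γ x.out
  e_inj x := cuspExpG_injective Γ x.out
  e_C x c := cuspExpG_algebraMap Γ x.out c
  J := cuspExpG Γ 1 (jWH0G Γ)
  e_X x := by rw [algebraMap_X_eq_jWH0G, cuspExpG_jWH0G]
  J_order := by
    rw [cuspExpG_jInv_order]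
    have := cuspM_pos Γ
    omega
  sep := by
    intro x y hxy
    have := cuspExpG_sep Γ hrank x.out y.out hxy
    rwa [QuotientGroup.out_eq', QuotientGroup.out_eq'] at this

lemma cuspFamilyG_e_mk (g : SL(2, ℤ)) :
    (cuspFamilyG Γ hrank).e (QuotientGroup.mk g) = cuspExpG Γ g := cuspExpG_out_mk Γ g

lemma cuspFamilyG_poleOrder : (cuspFamilyG Γ hrank).poleOrder = cuspM Γ := by
  have h := (cuspFamilyG Γ hrank).poleOrder_spec
  have h2 : (cuspFamilyG Γ hrank).J.order = -(cuspM Γ : ℤ) := cuspExpG_jInv_order Γ 1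
  rw [h2] at h
  omega

lemma cuspFamilyG_order_smul (g : Subgroup.zpowers ModularGroup.T) (x : SL(2, ℤ) ⧸ Γ)
    (b : ↥(WH0 Γ)) :
    ((cuspFamilyG Γ hrank).e (g • x) b).order = ((cuspFamilyG Γ hrank).e x b).order := by
  obtain ⟨g, hg⟩ := g
  obtain ⟨k, rfl⟩ := Subgroup.mem_zpowers_iff.mp hg
  induction x using QuotientGroup.induction_on with
  | H h =>
    have h1 : (⟨ModularGroup.T ^ k, hg⟩ : Subgroup.zpowers ModularGroup.T) •
        (QuotientGroup.mk h : SL(2, ℤ) ⧸ Γ) = QuotientGroup.mk (ModularGroup.T ^ k * h) := by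
      show (ModularGroup.T ^ k) • (QuotientGroup.mk h : SL(2, ℤ) ⧸ Γ) = _
      rw [MulAction.Quotient.smul_mk, smul_eq_mul]
    rw [h1, cuspFamilyG_e_mk, cuspFamilyG_e_mk, cuspExpG_T_zpow_mul_order]

lemma cuspFamilyG_orbSize_dvd (x : SL(2, ℤ) ⧸ Γ) :
    CenterData.orbSize (Subgroup.zpowers ModularGroup.T) x ∣ (cuspFamilyG Γ hrank).poleOrder := by
  rw [orbSize_zpowers_TG, cuspFamilyG_poleOrder]
  exact widthG_dvd Γ x

lemma cuspFamilyG_supp (x : SL(2, ℤ) ⧸ Γ) (b : ↥(WH0 Γ)) (n : ℤ)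
    (hn : ¬ (((cuspFamilyG Γ hrank).poleOrder /
      CenterData.orbSize (Subgroup.zpowers ModularGroup.T) x : ℕ) : ℤ) ∣ n) :
    ((cuspFamilyG Γ hrank).e x b).coeff n = 0 := by
  rw [orbSize_zpowers_TG, cuspFamilyG_poleOrder] at hn
  induction x using QuotientGroup.induction_on with
  | H h =>
    rw [cuspFamilyG_e_mk]
    exact cuspExpG_coeff_eq_zero_of_not_dvd_width Γ h b hn

include hrank in
/-- **The number of primes of the chart at infinity is the number of cusps.** -/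
theorem card_heightOneSpectrum_BGInf :
    Nat.card (HeightOneSpectrum (BGInf Γ)) = numCusps Γ :=
  (cuspFamilyG Γ hrank).card_heightOneSpectrum_Binf
    hrank.symm (cuspFamilyG_order_smul Γ hrank)
    (cuspFamilyG_orbSize_dvd Γ hrank) (cuspFamilyG_supp Γ hrank)

/-- the prime of the chart at infinity attached to the coset `x` (the centre of the cusp
expansion). -/
def cuspPrimeG (x : SL(2, ℤ) ⧸ Γ) : HeightOneSpectrum (BGInf Γ) :=
  ⟨(cuspFamilyG Γ hrank).centerData.center x, (cuspFamilyG Γ hrank).centerData.center_isPrime x,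
    (cuspFamilyG Γ hrank).centerData.center_ne_bot (cuspFamilyG Γ hrank).base_ne_bot x⟩

/-- two cosets give the same prime at infinity iff they are in the same `⟨T⟩`-orbit. -/
theorem cuspPrimeG_eq_iff (x y : SL(2, ℤ) ⧸ Γ) :
    cuspPrimeG Γ hrank y = cuspPrimeG Γ hrank x ↔
      y ∈ MulAction.orbit (Subgroup.zpowers ModularGroup.T) x := by
  rw [← (cuspFamilyG Γ hrank).center_eq_iff
    hrank.symm (cuspFamilyG_order_smul Γ hrank)
    (cuspFamilyG_orbSize_dvd Γ hrank) (cuspFamilyG_supp Γ hrank) x y]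
  constructor
  · intro h
    exact congrArg HeightOneSpectrum.asIdeal h
  · intro h
    exact HeightOneSpectrum.ext h

/-- every prime of the chart at infinity is the prime of a cusp. -/
theorem exists_cuspPrimeG_eq (P : HeightOneSpectrum (BGInf Γ)) :
    ∃ g : SL(2, ℤ), cuspPrimeG Γ hrank (QuotientGroup.mk g) = P := by
  obtain ⟨x, hx⟩ := (cuspFamilyG Γ hrank).exists_center_eq hrank.symm P
  induction x using QuotientGroup.induction_on with
  | H g => exact ⟨g, HeightOneSpectrum.ext hx⟩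

/-- the ramification index of the prime of a cusp is the width of the cusp. -/
theorem ramificationIdx_cuspPrimeG (x : SL(2, ℤ) ⧸ Γ) :
    (cuspPrimeG Γ hrank x).asIdeal.ramificationIdx (Ainf ℂ) = widthG Γ x := by
  rw [← orbSize_zpowers_TG]
  exact (cuspFamilyG Γ hrank).ramificationIdx_center
    hrank.symm (cuspFamilyG_order_smul Γ hrank)
    (cuspFamilyG_orbSize_dvd Γ hrank) (cuspFamilyG_supp Γ hrank) x

/-- the extension of `cuspExpG Γ g` to the fraction field `FanG Γ`. -/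
def cuspExpFFG (g : SL(2, ℤ)) : FanG Γ →+* LaurentSeries ℂ :=
  (cuspFamilyG Γ hrank).expFF (QuotientGroup.mk g)

lemma cuspExpFFG_algebraMap (g : SL(2, ℤ)) (a : ↥(WH0 Γ)) :
    cuspExpFFG Γ hrank g (algebraMap ↥(WH0 Γ) (FanG Γ) a) = cuspExpG Γ g a := by
  rw [cuspExpFFG, LaurentFamily.expFF_algebraMap, cuspFamilyG_e_mk]

/-- **(Dinf′), fraction field form**: the order of the cusp expansion at `g` is `M / width` times
the valuation at the prime of the cusp. -/
theorem order_cuspExpFFG (g : SL(2, ℤ)) {f : FanG Γ} (hf : f ≠ 0) :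
    (cuspExpFFG Γ hrank g f).order =
      ((cuspM Γ / widthG Γ (QuotientGroup.mk g) : ℕ) : ℤ) *
        ordV (cuspPrimeG Γ hrank (QuotientGroup.mk g)) f := by
  have h := (cuspFamilyG Γ hrank).order_expFF_eq_mul_ordV
    hrank.symm (cuspFamilyG_order_smul Γ hrank)
    (cuspFamilyG_orbSize_dvd Γ hrank) (cuspFamilyG_supp Γ hrank) (QuotientGroup.mk g)
    (cuspPrimeG Γ hrank (QuotientGroup.mk g)) rfl hf
  rwa [orbSize_zpowers_TG, cuspFamilyG_poleOrder] at h

/-- **(Dinf′)**: for `a ∈ B_Γ`, `ord (cuspExpG Γ g a) = (M / width) * ordV P_g a`. -/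
theorem order_cuspExpG (g : SL(2, ℤ)) {a : ↥(WH0 Γ)} (ha : a ≠ 0) :
    (cuspExpG Γ g a).order =
      ((cuspM Γ / widthG Γ (QuotientGroup.mk g) : ℕ) : ℤ) *
        ordV (cuspPrimeG Γ hrank (QuotientGroup.mk g))
          (algebraMap ↥(WH0 Γ) (FanG Γ) a) := by
  rw [← cuspExpFFG_algebraMap Γ hrank g a]
  apply order_cuspExpFFG Γ hrank
  exact fun h => ha (IsFractionRing.injective ↥(WH0 Γ) (FanG Γ)
    (h.trans (map_zero _).symm))

lemma div_widthG_pos (x : SL(2, ℤ) ⧸ Γ) : 0 < cuspM Γ / widthG Γ x :=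
  Nat.div_pos (Nat.le_of_dvd (cuspM_pos Γ) (widthG_dvd Γ x)) (widthG_pos Γ x)

/-- the valuation of `j` at the prime of a cusp is minus the width. -/
theorem ordV_cuspPrimeG_j (g : SL(2, ℤ)) :
    ordV (cuspPrimeG Γ hrank (QuotientGroup.mk g))
      (algebraMap ↥(WH0 Γ) (FanG Γ) (jWH0G Γ)) =
        -(widthG Γ (QuotientGroup.mk g) : ℤ) := by
  have hj0 : jWH0G Γ ≠ 0 := by
    intro h0
    have h1 := cuspExpG_jInv_order Γ 1
    rw [h0, map_zero, HahnSeries.order_zero] at h1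
    have := cuspM_pos Γ
    omega
  have h := order_cuspExpG Γ hrank g hj0
  rw [cuspExpG_jInv_order] at h
  obtain ⟨q, hq⟩ := widthG_dvd Γ (QuotientGroup.mk g)
  have hw := widthG_pos Γ (QuotientGroup.mk g)
  have hdiv : cuspM Γ / widthG Γ (QuotientGroup.mk g) = q := Nat.div_eq_of_eq_mul_right hw hq
  rw [hdiv] at h
  have hq0 : (q : ℤ) ≠ 0 := by
    intro h0
    have : q = 0 := by exact_mod_cast h0
    rw [this, mul_zero] at hq
    exact (NeZero.ne (cuspM Γ)) hq
  have hN : (cuspM Γ : ℤ) = (widthG Γ (QuotientGroup.mk g) : ℤ) * q := by exact_mod_cast hq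
  rw [hN] at h
  have h2 : (q : ℤ) * ordV (cuspPrimeG Γ hrank (QuotientGroup.mk g))
      (algebraMap ↥(WH0 Γ) (FanG Γ) (jWH0G Γ)) =
      (q : ℤ) * (-(widthG Γ (QuotientGroup.mk g) : ℤ)) := by
    rw [← h]; ring
  exact mul_left_cancel₀ hq0 h2

include hrank in
/-- an element of `B_Γ` which is integral over `Ainf` is regular at every cusp. -/
lemma order_cuspExpG_nonneg_of_mem_Binf (b : ↥(WH0 Γ))
    (hb : algebraMap ↥(WH0 Γ) (FanG Γ) b ∈ BGInf Γ)
    (g : SL(2, ℤ)) : 0 ≤ (cuspExpG Γ g b).order := by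
  have h := (cuspFamilyG Γ hrank).order_expFF_nonneg (QuotientGroup.mk g) ⟨_, hb⟩
  rwa [LaurentFamily.expFF_algebraMap, cuspFamilyG_e_mk] at h

include hrank in
/-- **`hconst`**: `B_Γ ∩ Binf = ℂ`. -/
theorem const_of_mem_range_of_mem_rangeG (h : FanG Γ)
    (h1 : h ∈ Set.range (algebraMap ↥(WH0 Γ) (FanG Γ)))
    (h2 : h ∈ Set.range (algebraMap (BGInf Γ) (FanG Γ))) :
    h ∈ Set.range (algebraMap ℂ (FanG Γ)) := by
  obtain ⟨b, rfl⟩ := h1
  obtain ⟨s, hs⟩ := h2
  have hb : algebraMap ↥(WH0 Γ) (FanG Γ) b ∈ BGInf Γ := by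
    rw [← hs]
    exact s.2
  obtain ⟨c, hc⟩ := eq_const_of_forall_order_nonnegG Γ b
    (order_cuspExpG_nonneg_of_mem_Binf Γ hrank b hb)
  refine ⟨c, ?_⟩
  rw [hc, ← IsScalarTower.algebraMap_apply]

end Fermat.Agent.S27lib.D4
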