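/-
S27lib / D4 / FinDict (helper6).
The finite-point dictionary for a subgroup `Γ ≤ SL(2,ℤ)` satisfying `GammaHyp` (no elliptic
points): the primes of `WH0 Γ` are the points of `Γ \ ℍ`, and the `P`-adic order of a function is
its analytic order at the point (multiplicity ONE).  Port of `ProgramR/Analytic/Gamma0Dict.lean`
and `S29lib/K3/StabGen.lean`.
-/
import Mathlib
import Fermat.Agent.S27lib.D4.GChart
import Fermat.Agent.S27lib.D4.Curve
import Fermat.Agent.ProgramR.Analytic.DictionaryOrd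
import Fermat.Agent.S29lib.K3.StabGen

set_option autoImplicit false
set_option linter.unusedSectionVars false

noncomputable section

namespace Fermat.Agent.S27lib.D4

open Fermat.Agent.ProgramR Fermat.Agent.ProgramR.Alg Fermat.Agent.S29lib
open UpperHalfPlane Polynomial Module IsDedekindDomain
open scoped Manifold MatrixGroups

variable {Γ : Subgroup SL(2, ℤ)} [Fintype (SL(2, ℤ) ⧸ Γ)]

/-- without elliptic points the stabiliser in `Γ` of a point of `ℍ` is `{±1}` -/
lemma card_stabIn_eq_two (hΓ : GammaHyp Γ) (z : ℍ) : Nat.card (K3.stabIn Γ z) = 2 := by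
  classical
  have hmem : ∀ γ : SL(2, ℤ), γ ∈ K3.stabIn Γ z ↔ γ = 1 ∨ γ = -1 := by
    intro γ
    rw [K3.mem_stabIn]
    constructor
    · rintro ⟨hz, hγ⟩
      exact hΓ.free γ hγ z hz
    · rintro (rfl | rfl)
      · exact ⟨one_smul _ z, Γ.one_mem⟩
      · refine ⟨?_, hΓ.neg⟩
        exact ModularGroup.SL_neg_smul 1 z |>.trans (one_smul _ z)
  have hne : (1 : SL(2, ℤ)) ≠ -1 := by
    intro h
    have := congrArg (fun M : SL(2, ℤ) => M 0 0) h
    simp at this
  have hset : ((K3.stabIn Γ z : Subgroup SL(2, ℤ)) : Set SL(2, ℤ)) = {1, -1} := by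
    ext γ
    simp only [SetLike.mem_coe, hmem, Set.mem_insert_iff, Set.mem_singleton_iff]
  have h1 : Nat.card (K3.stabIn Γ z) = Nat.card ((K3.stabIn Γ z : Subgroup SL(2, ℤ)) :
      Set SL(2, ℤ)) := rfl
  rw [h1, hset, Nat.card_coe_set_eq, Set.ncard_pair hne]

/-- the multiplicity of the finite-point dictionary is `1` when `Γ` has no elliptic points:
`t * |orbit| = jOrder z` and `|orbit| * |Γ_z| = |SL(2,ℤ)_z| = 2 * jOrder z` with `|Γ_z| = 2` -/
lemma mult_eq_one (hΓ : GammaHyp Γ) (z : ℍ) {t : ℕ}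
    (ht : t * Nat.card (MulAction.orbit (MulAction.stabilizer SL(2, ℤ) z)
      (QuotientGroup.mk 1 : SL(2, ℤ) ⧸ Γ)) = LevelOne.jOrder z) : t = 1 := by
  have h1 := K3.card_stabIn_mul_card_orbit Γ z
  rw [LevelOne.card_stabilizer, card_stabIn_eq_two hΓ z, ← ht] at h1
  set O := Nat.card (MulAction.orbit (MulAction.stabilizer SL(2, ℤ) z)
    (QuotientGroup.mk 1 : SL(2, ℤ) ⧸ Γ)) with hO
  have hOpos : 0 < O := by
    rcases Nat.eq_zero_or_pos O with h | h
    · rw [h, mul_zero] at ht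
      rcases jOrder_cases z with h' | h' | h' <;> omega
    · exact h
  have h2 : O * 2 = O * (2 * t) := by rw [h1]; ring
  have := Nat.eq_of_mul_eq_mul_left hOpos h2
  omega

variable {L : Type*} [Field L] [Algebra (WH0 Γ) L] [IsFractionRing (WH0 Γ) L]

/-- **(Dfin')**: at every point `z` the analytic order is the `P_z`-adic order,
`P_z = {h | h z = 0}`. -/
theorem exists_prime_ordAt_eq (hΓ : GammaHyp Γ) (z : ℍ) :
    ∃ P : HeightOneSpectrum (WH0 Γ), (∀ h : WH0 Γ, h ∈ P.asIdeal ↔ h.1 z = 0) ∧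
      ∀ a : WH0 Γ, a ≠ 0 → Hol.ordAt z (WH0.toHol Γ a) =
        (((Alg.ordV P (algebraMap (WH0 Γ) L a)).toNat : ℕ) : ℕ∞) := by
  set A := gChart Γ hΓ.rank
  have hp0 := A.base_ne_bot z (LevelOne.jInv z) rfl
  let P : HeightOneSpectrum (WH0 Γ) :=
    ⟨A.center z (QuotientGroup.mk 1), (A.centerData z).center_isPrime _,
      (A.centerData z).center_ne_bot hp0 _⟩
  obtain ⟨t, -, htorb, ht⟩ := A.ordAt_eq_mul_ordV (L := L) (gChart_card Γ hΓ.rank)
    hΓ.neg z (LevelOne.jInv z) rfl 1 P rfl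
  have ht1 : t = 1 := mult_eq_one hΓ z htorb
  refine ⟨P, ?_, ?_⟩
  · intro h
    change h ∈ A.center z (QuotientGroup.mk 1) ↔ _
    rw [A.mem_center_mk]
    simp only [inv_one, one_smul]
    rfl
  · intro a ha
    have := ht a ha
    rw [gChart_ev, ht1, one_mul] at this
    simpa using this

/-- **(K3a)** if the divisor of `G` is divisible by `n` then so are all the analytic orders of `G`
on `ℍ`. -/
theorem exists_ordAt_eq_mul_of_NDivG (hΓ : GammaHyp Γ) {n : ℕ} {G : BG Γ} (hG : G ≠ 0)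
    (h : NDivG Γ n G) (z : ℍ) :
    ∃ k : ℕ, Hol.ordAt z (WH0.toHol Γ G) = ((n * k : ℕ) : ℕ∞) := by
  obtain ⟨P, -, hs⟩ := exists_prime_ordAt_eq (L := FanG Γ) hΓ z
  have h1 := ((nDivFG_iff Γ n (toFanG Γ G)).mp h).1 P
  have h0 : 0 ≤ ordV P (toFanG Γ G) := ordV_algebraMap_nonneg (L := FanG Γ) P hG
  obtain ⟨c, hc⟩ := h1
  have hc0 : 0 ≤ (n : ℤ) * c := hc ▸ h0
  refine ⟨c.toNat, ?_⟩
  rw [hs G hG]
  congr 1
  show (ordV P (toFanG Γ G)).toNat = n * c.toNat
  rw [hc]
  rcases Nat.eq_zero_or_pos n with rfl | hn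
  · simp
  · have hc' : 0 ≤ c := by
      by_contra hlt
      rw [not_le] at hlt
      have : (n : ℤ) * c < 0 := mul_neg_of_pos_of_neg (by exact_mod_cast hn) hlt
      omega
    rw [Int.toNat_mul (by positivity) hc', Int.toNat_natCast]

end Fermat.Agent.S27lib.D4
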