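/-
S27lib / D4 / FinPoint (helper5).  (K3b, finite points, no elliptic points)
Every prime `P` of `WH0 Γ` is the prime `P_z` of a point `z ∈ ℍ` (with multiplicity ONE, as `Γ` has
no elliptic points); hence for a root datum `(y, χ)` of `G ∈ WH0 Γ` the divisor of `G` on the
finite chart is divisible by `n`.  Port of `S29lib/K3/{FinDict,EllipticCoprime}`.
-/
import Mathlib
import Fermat.Agent.S27lib.D4.FinDict
import Fermat.Agent.S27lib.D4.RootData
import Fermat.Agent.S29lib.K3.EllipticCoprime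

set_option autoImplicit false
set_option linter.unusedSectionVars false

noncomputable section

namespace Fermat.Agent.S27lib.D4

open Fermat.Agent.ProgramR Fermat.Agent.ProgramR.Alg Fermat.Agent.S29lib
open UpperHalfPlane Polynomial Module IsDedekindDomain
open scoped Manifold MatrixGroups

variable {Γ : Subgroup SL(2, ℤ)} [Fintype (SL(2, ℤ) ⧸ Γ)]

/-- **(Dfin)**: every prime of `WH0 Γ` is `P_z` for some `z ∈ ℍ`, with `ord_z a = ord_P a`. -/
theorem exists_point_ordAt_eqG {L : Type*} [Field L] [Algebra (WH0 Γ) L]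
    [IsFractionRing (WH0 Γ) L] (hΓ : GammaHyp Γ) (P : HeightOneSpectrum (WH0 Γ)) :
    ∃ z : ℍ, (∀ h : WH0 Γ, h ∈ P.asIdeal ↔ h.1 z = 0) ∧
      ∀ a : WH0 Γ, a ≠ 0 → Hol.ordAt z (WH0.toHol Γ a) =
        (((ordV P (algebraMap (WH0 Γ) L a)).toNat : ℕ) : ℕ∞) := by
  set A := gChart Γ hΓ.rank
  have := P.isPrime
  obtain ⟨c, hc⟩ := exists_X_sub_C_mem (k := ℂ) P.asIdeal P.ne_bot
  obtain ⟨z₀, hz⟩ := LevelOne.jInv_surjective c
  obtain ⟨g, hPg, -⟩ := A.exists_ordAt_eq_mul_ordV (L := L)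
    (gChart_card Γ hΓ.rank) hΓ.neg z₀ c hz P hc
  have hmem : ∀ h : WH0 Γ, h ∈ P.asIdeal ↔ h.1 (g⁻¹ • z₀) = 0 := by
    intro h
    rw [hPg, A.mem_center_mk]
    rfl
  obtain ⟨P', hP', hord⟩ := exists_prime_ordAt_eq (L := L) hΓ (g⁻¹ • z₀)
  have hPP : P' = P := by
    apply HeightOneSpectrum.ext
    ext h
    rw [hP', hmem]
  rw [hPP] at hord
  exact ⟨g⁻¹ • z₀, hmem, hord⟩

namespace RootDataG

variable {n : ℕ} {G : BG Γ} (R : RootDataG Γ n G)

include R in
/-- the existence of an `n`-th root on `ℍ` forces the divisor of `G` on the finite chart to be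
divisible by `n` (no elliptic points) -/
theorem dvd_ordV_fin (hΓ : GammaHyp Γ) (hG : G ≠ 0) (hn : 0 < n)
    (P : HeightOneSpectrum (BG Γ)) : (n : ℤ) ∣ ordV P (toFanG Γ G) := by
  obtain ⟨z, -, hord⟩ := exists_point_ordAt_eqG (L := FanG Γ) hΓ P
  have h1 := hord G hG
  rw [← R.pow_eq, K3.Hol_ordAt_pow] at h1
  have hy : Hol.ordAt z R.y ≠ ⊤ := by
    rw [Ne, Hol.ordAt_eq_top_iff]
    exact R.y_ne_zero hG hn
  obtain ⟨m, hm⟩ := ENat.ne_top_iff_exists.1 hy
  rw [← hm] at h1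
  have h2 : n * m = (ordV P (toFanG Γ G)).toNat := by
    have : ((n * m : ℕ) : ℕ∞) = (((ordV P (toFanG Γ G)).toNat : ℕ) : ℕ∞) := by
      rw [← h1]
      simp
    exact_mod_cast this
  have h3 : n ∣ (ordV P (toFanG Γ G)).toNat := ⟨m, h2.symm⟩
  have h0 : 0 ≤ ordV P (toFanG Γ G) := ordV_algebraMap_nonneg (L := FanG Γ) P hG
  have h4 : ((ordV P (toFanG Γ G)).toNat : ℤ) = ordV P (toFanG Γ G) := Int.toNat_of_nonneg h0
  rw [← h4]
  exact_mod_cast h3

end RootDataG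

end Fermat.Agent.S27lib.D4
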