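/-
S27lib / D4 / Glue (helper5; port of S29lib/K3/Glue (helper6) to a general `Γ`).
The inputs (a)–(d) of `K1.exists_kummerEquiv` for the analytic curve `FanG Γ / ℂ`, the Kummer
relation `K1.IsKum Γ n` and the subgroup `charSubG Γ n` of the characters of exponent `n`
killing the parabolic and the finite order elements, for `Γ` satisfying `GammaHyp` (no elliptic
points: the elements of finite order of `Γ` are `±1`).
-/
import Mathlib
import Fermat.Agent.S29lib.K1.KummerRel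
import Fermat.Agent.S29lib.K1.Const
import Fermat.Agent.S29lib.K3.Torsion
import Fermat.Agent.S27lib.D4.K2.ParTor
import Fermat.Agent.S27lib.D4.CharSub
import Fermat.Agent.S27lib.D4.CuspDiv
import Fermat.Agent.S27lib.D4.FinPoint

set_option autoImplicit false
set_option linter.unusedSectionVars false

noncomputable section

namespace Fermat.Agent.S27lib.D4

open Fermat.Agent.ProgramR Fermat.Agent.ProgramR.RR Fermat.Agent.ProgramR.Alg
open Fermat.Agent.ProgramR.ES Fermat.Agent.S16lib.LG Fermat.Agent.S29lib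
open AlgebraicCurve UpperHalfPlane IsDedekindDomain
open scoped Manifold MatrixGroups

variable (Γ : Subgroup SL(2, ℤ)) [Fintype (SL(2, ℤ) ⧸ Γ)]

/-- **(a)** the functions without zeros and poles are the constants -/
theorem hconstG (f : FanG Γ) (hf : f ≠ 0) (h : ∀ v : Place ℂ (FanG Γ), v.ord f = 0) :
    ∃ c : ℂ, algebraMap ℂ (FanG Γ) c = f :=
  K1.const_of_ord_eq_zero (isCurveG Γ) f hf h

instance hasPrincipalDivisorsG : HasPrincipalDivisors ℂ (FanG Γ) :=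
  (isCurveG Γ).hasPrincipalDivisors

/-- the divisor of `f * b ^ n` is divisible by `n` if the divisor of `f` is -/
lemma nDivFG_mul_pow {n : ℕ} {f : FanG Γ} (hf : f ≠ 0) (h : NDivFG Γ n f) {b : FanG Γ}
    (hb : b ≠ 0) : NDivFG Γ n (f * b ^ n) := by
  intro v
  rw [v.ord_mul hf (pow_ne_zero _ hb)]
  have h1 : v.ord (b ^ n) = n * v.ord b := by
    have := v.ord_zpow b (n : ℤ)
    rwa [zpow_natCast] at this
  rw [h1]
  exact dvd_add (h v) (dvd_mul_right _ _)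

variable {Γ}

/-- **(b)** the dictionary: divisor divisible by `n` ⇒ orders on `ℍ` divisible by `n` -/
theorem hdictG (hΓ : GammaHyp Γ) {n : ℕ} (hn : 0 < n) (f : FanG Γ) (hf : f ≠ 0)
    (h : ∀ v : Place ℂ (FanG Γ), (n : ℤ) ∣ v.ord f) : K1.HDiv Γ n f := by
  obtain ⟨a, b, hb, hab⟩ := IsFractionRing.div_surjective (A := BG Γ) f
  have hb0 : b ≠ 0 := nonZeroDivisors.ne_zero hb
  have hb' : algebraMap (BG Γ) (FanG Γ) b ≠ 0 := toFanG_ne_zero Γ hb0
  obtain ⟨k, rfl⟩ : ∃ k, n = k + 1 := ⟨n - 1, by omega⟩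
  have hG : algebraMap (BG Γ) (FanG Γ) (a * b ^ k) =
      f * (algebraMap (BG Γ) (FanG Γ) b) ^ (k + 1) := by
    rw [← hab, map_mul, map_pow, pow_succ]
    field_simp
  have ha0 : a * b ^ k ≠ 0 := by
    intro h0
    rw [h0, map_zero] at hG
    exact (mul_ne_zero hf (pow_ne_zero _ hb')) hG.symm
  refine ⟨a * b ^ k, b, hb0, hG, fun z => ?_⟩
  apply exists_ordAt_eq_mul_of_NDivG hΓ ha0
  show NDivFG Γ (k + 1) (algebraMap (BG Γ) (FanG Γ) (a * b ^ k))
  rw [hG]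
  exact nDivFG_mul_pow Γ hf h hb'

/-- the Kummer relation of `Γ` on the analytic function field satisfies the abstract axioms -/
theorem kummerRelG (hΓ : GammaHyp Γ) {n : ℕ} (hn : 0 < n) :
    K1.KummerRel ℂ (FanG Γ) n (K1.IsKum Γ n (F := FanG Γ)) :=
  K1.isKum_kummerRel Γ hn (hdictG hΓ hn)

/-- the root datum of a Kummer datum -/
def rootDataOfIsKumG {n : ℕ} {G : BG Γ} {y : Hol} {χ : Γ →* ℂˣ}
    (hy : y ^ n = WH0.toHol Γ G) (ht : K1.Transforms Γ y χ) :
    RootDataG Γ n G where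
  y := y
  pow_eq := hy
  χ := χ
  smul_eq := ht.apply

/-- without elliptic points the elements of finite order of `Γ` are `±1` -/
lemma eq_one_or_neg_one_of_pow_twelve (hΓ : GammaHyp Γ) (γ : Γ)
    (hγ : (γ : SL(2, ℤ)) ^ 12 = 1) : (γ : SL(2, ℤ)) = 1 ∨ (γ : SL(2, ℤ)) = -1 := by
  rcases K3.exists_fixed_point_of_pow_twelve _ hγ with h | h | ⟨z, hz⟩
  · exact Or.inl h
  · exact Or.inr h
  · exact hΓ.free _ γ.2 z hz

/-- the character of a root datum kills the elements of finite order (no elliptic points) -/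
lemma RootDataG.χ_eq_one_of_pow_twelve (hΓ : GammaHyp Γ) {n : ℕ} {G : BG Γ}
    (R : RootDataG Γ n G) (hG : G ≠ 0) (hn : 0 < n) (γ : Γ)
    (hγ : (γ : SL(2, ℤ)) ^ 12 = 1) : R.χ γ = 1 := by
  rcases eq_one_or_neg_one_of_pow_twelve hΓ γ hγ with h | h
  · have e : γ = 1 := Subtype.ext h
    rw [e, map_one]
  · have e : γ = ⟨-1, hΓ.neg⟩ := Subtype.ext h
    rw [e]
    exact R.χ_neg_one hG hn hΓ.neg

/-- **(c)** the Kummer character of a function with divisor divisible by `n` lies in `charSubG` -/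
theorem hYG (hΓ : GammaHyp Γ) {n : ℕ} (hn : 0 < n) (f : FanG Γ) (χ : Γ →* ℂˣ)
    (hf : f ≠ 0) (h : ∀ v : Place ℂ (FanG Γ), (n : ℤ) ∣ v.ord f)
    (hK : K1.IsKum Γ n f χ) : χ ∈ charSubG Γ n := by
  obtain ⟨G, b, y, hb, hG, hGf, hy, ht⟩ := hK
  set R : RootDataG Γ n G := rootDataOfIsKumG hy ht with hR
  have hb' : algebraMap (BG Γ) (FanG Γ) b ≠ 0 := toFanG_ne_zero Γ hb
  have hND : NDivFG Γ n (toFanG Γ G) := by
    show NDivFG Γ n (algebraMap (BG Γ) (FanG Γ) G)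
    rw [hGf]
    exact nDivFG_mul_pow Γ hf h hb'
  obtain ⟨-, hinf⟩ := (nDivFG_iff Γ n _).mp hND
  refine ⟨fun γ => R.χ_pow hG γ, fun γ hγ => ?_⟩
  rcases hγ with hpar | htor
  · exact R.χ_eq_one_of_isPar hΓ hG hn hinf γ hpar
  · exact R.χ_eq_one_of_pow_twelve hΓ hG hn γ htor

/-- **(d)** every character in `charSubG` is the Kummer character of a function with divisor
divisible by `n` (twisted Eisenstein series) -/
theorem hsurjG (hΓ : GammaHyp Γ) {n : ℕ} (hn : 0 < n) (χ : Γ →* ℂˣ)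
    (hχ : χ ∈ charSubG Γ n) :
    ∃ f : FanG Γ, f ≠ 0 ∧ (∀ v : Place ℂ (FanG Γ), (n : ℤ) ∣ v.ord f) ∧
      K1.IsKum Γ n f χ := by
  obtain ⟨hχn, hkill⟩ := hχ
  obtain ⟨y, G, -, hG, hGy, hsm⟩ := K2.exists_yChiG hΓ.neg hn.ne' hχn hkill
  have hy : y ^ n = WH0.toHol Γ G := hGy.symm
  have ht : K1.Transforms Γ y χ := K1.Transforms.of_apply (fun γ z => hsm γ z)
  set R : RootDataG Γ n G := rootDataOfIsKumG hy ht with hR
  refine ⟨toFanG Γ G, toFanG_ne_zero Γ hG, ?_, ?_⟩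
  · rw [← NDivFG, nDivFG_iff]
    refine ⟨R.dvd_ordV_fin hΓ hG hn,
      R.dvd_ordV_inf_of_χ hΓ hG hn (fun γ hγ => hkill γ (Or.inl hγ))⟩
  · refine ⟨G, 1, y, one_ne_zero, hG, ?_, hy, ht⟩
    rw [map_one, one_pow, mul_one]

/-- **the analytic Kummer isomorphism** `Pic⁰(FanG Γ)[n] ≃ charSubG Γ n` (proved form of the STUB
`exists_kummerEquivG` of `IfaceD4`) -/
theorem kummerEquivG_exists (hΓ : GammaHyp Γ) {n : ℕ} (hn : 0 < n) :
    ∃ κ : Pic0.torsion ℂ (FanG Γ) n ≃+ Additive (charSubG Γ n),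
      ∀ x : Pic0.torsion ℂ (FanG Γ) n,
        K1.PicRel ℂ n (K1.IsKum Γ n (F := FanG Γ)) (x : Pic0 ℂ (FanG Γ))
          ((Additive.toMul (κ x) : charSubG Γ n) : Γ →* ℂˣ) :=
  K1.exists_kummerEquiv (hconstG Γ) (kummerRelG hΓ hn) hn (charSubG Γ n)
    (hYG hΓ hn) (hsurjG hΓ hn)

end Fermat.Agent.S27lib.D4
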