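/-
S27lib / D4 / FinCount (helper6).
The numbers of primes of the finite chart `WH0 Γ` over `j = c` when `Γ` has no elliptic points:
`#{P | c} * e_c = [SL(2,ℤ) : Γ]` with `e_c = jOrder z₀` (`3` over `0`, `2` over `1728`, `1`
elsewhere).
-/
import Mathlib
import Fermat.Agent.S27lib.D4.FinDict
import Fermat.Agent.ProgramR.Analytic.OrbitDictJ

set_option autoImplicit false
set_option linter.unusedSectionVars false
set_option linter.style.haveILetI false

noncomputable section

namespace Fermat.Agent.S27lib.D4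

open Fermat.Agent.ProgramR Fermat.Agent.ProgramR.Alg Fermat.Agent.S29lib
open UpperHalfPlane Polynomial Module IsDedekindDomain
open scoped Manifold MatrixGroups

variable {Γ : Subgroup SL(2, ℤ)} [Fintype (SL(2, ℤ) ⧸ Γ)]

/-- without elliptic points, the stabiliser of a coset in the stabiliser of a point is `{±1}` -/
lemma card_stabilizer_coset (hΓ : GammaHyp Γ) (z₀ : ℍ) (x : SL(2, ℤ) ⧸ Γ) :
    Nat.card (MulAction.stabilizer (MulAction.stabilizer SL(2, ℤ) z₀) x) = 2 := by
  classical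
  induction x using QuotientGroup.induction_on with
  | H g =>
  set H := MulAction.stabilizer SL(2, ℤ) z₀ with hH
  have hne : (1 : SL(2, ℤ)) ≠ -1 := by
    intro h
    have := congrArg (fun M : SL(2, ℤ) => M 0 0) h
    simp at this
  have hnegH : (-1 : SL(2, ℤ)) ∈ H := by
    rw [hH, MulAction.mem_stabilizer_iff]
    exact (ModularGroup.SL_neg_smul 1 z₀).trans (one_smul _ z₀)
  have hmem : ∀ h : H, h ∈ MulAction.stabilizer H (QuotientGroup.mk g : SL(2, ℤ) ⧸ Γ) ↔
      (h : SL(2, ℤ)) = 1 ∨ (h : SL(2, ℤ)) = -1 := by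
    intro h
    rw [MulAction.mem_stabilizer_iff]
    have e1 : h • (QuotientGroup.mk g : SL(2, ℤ) ⧸ Γ) =
        (h : SL(2, ℤ)) • (QuotientGroup.mk g : SL(2, ℤ) ⧸ Γ) := rfl
    rw [e1, MulAction.Quotient.smul_mk, smul_eq_mul, eq_comm, QuotientGroup.eq]
    constructor
    · intro hmem
      have hfix : (g⁻¹ * ((h : SL(2, ℤ)) * g)) • (g⁻¹ • z₀) = g⁻¹ • z₀ := by
        rw [mul_smul, mul_smul, smul_inv_smul]
        congr 1
        exact MulAction.mem_stabilizer_iff.mp h.2
      rcases hΓ.free _ hmem _ hfix with h1 | h1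
      · left
        have : (h : SL(2, ℤ)) = g * (g⁻¹ * ((h : SL(2, ℤ)) * g)) * g⁻¹ := by group
        rw [this, h1]
        group
      · right
        have : (h : SL(2, ℤ)) = g * (g⁻¹ * ((h : SL(2, ℤ)) * g)) * g⁻¹ := by group
        rw [this, h1]
        simp
    · rintro (h1 | h1)
      · rw [h1, one_mul, inv_mul_cancel]
        exact Γ.one_mem
      · rw [h1]
        have : g⁻¹ * (-1 * g) = -1 := by simp
        rw [this]
        exact hΓ.neg
  have hset : ((MulAction.stabilizer H (QuotientGroup.mk g : SL(2, ℤ) ⧸ Γ) : Subgroup H) :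
      Set H) = {1, ⟨-1, hnegH⟩} := by
    ext h
    simp only [SetLike.mem_coe, hmem, Set.mem_insert_iff, Set.mem_singleton_iff]
    constructor
    · rintro (h1 | h1)
      · left; exact Subtype.ext h1
      · right; exact Subtype.ext h1
    · rintro (h1 | h1)
      · left; rw [h1]; rfl
      · right; rw [h1]
  have hne' : (1 : H) ≠ ⟨-1, hnegH⟩ := fun h => hne (congrArg Subtype.val h)
  have h1 : Nat.card (MulAction.stabilizer H (QuotientGroup.mk g : SL(2, ℤ) ⧸ Γ)) =
      Nat.card ((MulAction.stabilizer H (QuotientGroup.mk g : SL(2, ℤ) ⧸ Γ) : Subgroup H) :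
        Set H) := rfl
  rw [h1, hset, Nat.card_coe_set_eq, Set.ncard_pair hne']

/-- without elliptic points every orbit of the stabiliser of `z₀` on the cosets has
`jOrder z₀` elements -/
lemma card_orbit_stabilizer (hΓ : GammaHyp Γ) (z₀ : ℍ) (x : SL(2, ℤ) ⧸ Γ) :
    Nat.card (MulAction.orbit (MulAction.stabilizer SL(2, ℤ) z₀) x) = LevelOne.jOrder z₀ := by
  classical
  set H := MulAction.stabilizer SL(2, ℤ) z₀ with hH
  letI : Fintype H := Fintype.ofFinite H
  haveI : Finite (MulAction.orbit H x) := (Set.finite_range (fun h : H => h • x)).to_subtype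
  letI : Fintype (MulAction.orbit H x) := Fintype.ofFinite _
  letI : Fintype (MulAction.stabilizer H x) := Fintype.ofFinite _
  have hos := MulAction.card_orbit_mul_card_stabilizer_eq_card_group H x
  rw [← Nat.card_eq_fintype_card, ← Nat.card_eq_fintype_card, ← Nat.card_eq_fintype_card,
    card_stabilizer_coset hΓ z₀ x, LevelOne.card_stabilizer] at hos
  omega

/-- the number of orbits of the stabiliser of `z₀` on the cosets -/
theorem card_orbits_mul_jOrder (hΓ : GammaHyp Γ) (z₀ : ℍ) :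
    Nat.card (MulAction.orbitRel.Quotient (MulAction.stabilizer SL(2, ℤ) z₀) (SL(2, ℤ) ⧸ Γ)) *
      LevelOne.jOrder z₀ = Fintype.card (SL(2, ℤ) ⧸ Γ) := by
  classical
  set H := MulAction.stabilizer SL(2, ℤ) z₀ with hH
  have e := MulAction.selfEquivSigmaOrbits H (SL(2, ℤ) ⧸ Γ)
  letI : Fintype (MulAction.orbitRel.Quotient H (SL(2, ℤ) ⧸ Γ)) := Fintype.ofFinite _
  have h1 := Nat.card_congr e
  rw [Nat.card_sigma] at h1
  rw [← Nat.card_eq_fintype_card, h1, Finset.sum_congr rfl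
    (fun ω _ => card_orbit_stabilizer hΓ z₀ ω.out), Finset.sum_const, smul_eq_mul,
    Finset.card_univ, Nat.card_eq_fintype_card]

/-- **Number of primes over `j = c`**: `#{P | c} * e_c = [SL(2,ℤ) : Γ]`. -/
theorem card_primes_overG (hΓ : GammaHyp Γ) (c : ℂ) (z₀ : ℍ) (hz : LevelOne.jInv z₀ = c) :
    Nat.card {P : HeightOneSpectrum (WH0 Γ) // algebraMap ℂ[X] (WH0 Γ) (X - C c) ∈ P.asIdeal} *
      LevelOne.jOrder z₀ = Fintype.card (SL(2, ℤ) ⧸ Γ) := by
  rw [(gChart Γ hΓ.rank).card_primes_eq_card_orbits (gChart_card Γ hΓ.rank) hΓ.neg z₀ c hz]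
  exact card_orbits_mul_jOrder hΓ z₀

theorem card_primes_over_zeroG (hΓ : GammaHyp Γ) :
    Nat.card {P : HeightOneSpectrum (WH0 Γ) // algebraMap ℂ[X] (WH0 Γ) (X - C 0) ∈ P.asIdeal} * 3 =
      Fintype.card (SL(2, ℤ) ⧸ Γ) := by
  have h := card_primes_overG hΓ 0 UpperHalfPlane.ρ LevelOne.jInv_ρ
  rwa [OrbitDict.jOrder_ρ] at h

theorem card_primes_over_1728G (hΓ : GammaHyp Γ) :
    Nat.card {P : HeightOneSpectrum (WH0 Γ) //
      algebraMap ℂ[X] (WH0 Γ) (X - C 1728) ∈ P.asIdeal} * 2 = Fintype.card (SL(2, ℤ) ⧸ Γ) := by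
  have h := card_primes_overG hΓ 1728 UpperHalfPlane.I LevelOne.jInv_I
  rwa [OrbitDict.jOrder_I] at h

theorem card_primes_over_genericG (hΓ : GammaHyp Γ) (c : ℂ) (h0 : c ≠ 0) (h1728 : c ≠ 1728) :
    Nat.card {P : HeightOneSpectrum (WH0 Γ) // algebraMap ℂ[X] (WH0 Γ) (X - C c) ∈ P.asIdeal} =
      Fintype.card (SL(2, ℤ) ⧸ Γ) := by
  obtain ⟨z₀, hz⟩ := LevelOne.jInv_surjective c
  have h := card_primes_overG hΓ c z₀ hz
  rwa [OrbitDict.jOrder_of_ne (by rwa [hz]) (by rwa [hz]), mul_one] at h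

end Fermat.Agent.S27lib.D4
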