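/-
S27lib / D4 / RH (helper6).
**Riemann–Hurwitz** for the analytic curve `FanG Γ / ℂ(j)` of a subgroup `Γ` without elliptic
points: `12 g - 12 = [SL(2,ℤ) : Γ] - 6 * (number of cusps)`.
-/
import Mathlib
import Fermat.Agent.S27lib.D4.FinCount
import Fermat.Agent.S27lib.D4.InfDict
import Fermat.Agent.ProgramR.RR.DiscPoly
import Fermat.Agent.ProgramR.RR.DiscInf

set_option autoImplicit false
set_option linter.unusedSectionVars false

noncomputable section

namespace Fermat.Agent.S27lib.D4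

open Fermat.Agent.ProgramR Fermat.Agent.ProgramR.RR Fermat.Agent.ProgramR.Alg
open Fermat.Agent.S18lib
open UpperHalfPlane Polynomial Module IsDedekindDomain nonZeroDivisors
open scoped Manifold MatrixGroups

variable (Γ : Subgroup SL(2, ℤ)) [Fintype (SL(2, ℤ) ⧸ Γ)]

/-- the degree of the discriminant of the finite chart -/
theorem degFin_oneG :
    RRgen.degFin ℂ (FanG Γ) (BG Γ) 1 =
      ∑ᶠ c : ℂ, ((finrank (RatFunc ℂ) (FanG Γ) : ℤ) -
        Nat.card {P : HeightOneSpectrum (BG Γ) //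
          algebraMap ℂ[X] (BG Γ) (X - C c) ∈ P.asIdeal}) := by
  obtain ⟨u, hu⟩ := RRgen.exists_basis_latt_eq (k := ℂ) ℂ[X] (BG Γ)
    (1 : FractionalIdeal (BG Γ)⁰ (FanG Γ)) one_ne_zero
  have hu' : Latt (Apoly ℂ) u =
      (((1 : FractionalIdeal (BG Γ)⁰ (FanG Γ)) : Submodule (BG Γ) (FanG Γ)) : Set (FanG Γ)) := hu
  rw [← RRgen.degFin_eq ℂ (FanG Γ) (BG Γ) 1 one_ne_zero u hu']
  apply intDegree_discr_eq_finsum ℂ (FanG Γ) (BG Γ) u
  rw [hu', FractionalIdeal.coe_one]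
  ext x
  simp [Submodule.mem_one]

/-- the degree of the discriminant of the chart at infinity -/
theorem degInf_oneG :
    -RRgen.degInf ℂ (FanG Γ) (BGInf Γ) 1 =
      (finrank (RatFunc ℂ) (FanG Γ) : ℤ) - Nat.card (HeightOneSpectrum (BGInf Γ)) := by
  obtain ⟨v, hv⟩ := RRgen.exists_basis_latt_eq (k := ℂ) (Ainf ℂ) (BGInf Γ)
    (1 : FractionalIdeal (BGInf Γ)⁰ (FanG Γ)) one_ne_zero
  have hv' : Latt (Ainf ℂ) v =
      (((1 : FractionalIdeal (BGInf Γ)⁰ (FanG Γ)) : Submodule (BGInf Γ) (FanG Γ)) :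
        Set (FanG Γ)) := by
    rw [← hv, range_algebraMap_Ainf]
  rw [← RRgen.degInf_eq ℂ (FanG Γ) (BGInf Γ) 1 one_ne_zero v hv']
  apply neg_intDegree_discr_eq ℂ (FanG Γ) (BGInf Γ) v
  rw [hv', FractionalIdeal.coe_one]
  ext x
  simp [Submodule.mem_one]

/-- Riemann–Hurwitz in terms of the numbers of primes of the two charts -/
theorem two_mul_genusG_sub_two :
    2 * (genusG Γ : ℤ) - 2 = -2 * (finrank (RatFunc ℂ) (FanG Γ) : ℤ)
      + ∑ᶠ c : ℂ, ((finrank (RatFunc ℂ) (FanG Γ) : ℤ) -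
        Nat.card {P : HeightOneSpectrum (BG Γ) //
          algebraMap ℂ[X] (BG Γ) (X - C c) ∈ P.asIdeal})
      + ((finrank (RatFunc ℂ) (FanG Γ) : ℤ) - Nat.card (HeightOneSpectrum (BGInf Γ))) := by
  have h := RRgen.two_mul_genus_sub_two ℂ (FanG Γ) (BG Γ) (BGInf Γ)
  rw [RRgen.discConst, degFin_oneG] at h
  have h2 := degInf_oneG Γ
  rw [genusG]
  linarith

variable {Γ}

/-- the degree of the function field over `ℂ(j)` is the index -/
lemma finrank_FanG (hΓ : GammaHyp Γ) :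
    finrank (RatFunc ℂ) (FanG Γ) = Fintype.card (SL(2, ℤ) ⧸ Γ) := by
  rw [← hΓ.rank]
  exact IsFractionRing.finrank_eq ℂ[X] (RatFunc ℂ) (BG Γ) (FanG Γ)

variable (Γ) in
/-- **Riemann–Hurwitz** for `FanG Γ / ℂ(j)` without elliptic points -/
theorem twelve_mul_genusG (hΓ : GammaHyp Γ) :
    12 * (genusG Γ : ℤ) - 12 = (Fintype.card (SL(2, ℤ) ⧸ Γ) : ℤ) - 6 * (numCusps Γ : ℤ) := by
  classical
  have h := two_mul_genusG_sub_two Γ
  rw [card_heightOneSpectrum_BGInf Γ hΓ.rank, finrank_FanG hΓ] at h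
  set d : ℕ := Fintype.card (SL(2, ℤ) ⧸ Γ) with hd
  have hne : (0 : ℂ) ≠ 1728 := by norm_num
  have hsum : ∑ᶠ c : ℂ, ((d : ℤ) - Nat.card {P : HeightOneSpectrum (BG Γ) //
      algebraMap ℂ[X] (BG Γ) (X - C c) ∈ P.asIdeal}) =
      ((d : ℤ) - Nat.card {P : HeightOneSpectrum (BG Γ) //
        algebraMap ℂ[X] (BG Γ) (X - C 0) ∈ P.asIdeal}) +
      ((d : ℤ) - Nat.card {P : HeightOneSpectrum (BG Γ) //
        algebraMap ℂ[X] (BG Γ) (X - C 1728) ∈ P.asIdeal}) := by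
    rw [finsum_eq_sum_of_support_subset (s := ({0, 1728} : Finset ℂ))]
    · rw [Finset.sum_pair hne]
    · intro c hc
      rw [Function.mem_support] at hc
      by_contra hcs
      rw [Finset.coe_insert, Finset.coe_singleton, Set.mem_insert_iff, Set.mem_singleton_iff,
        not_or] at hcs
      apply hc
      rw [card_primes_over_genericG hΓ c hcs.1 hcs.2, sub_self]
  rw [hsum] at h
  have h0 := card_primes_over_zeroG hΓ
  have h1 := card_primes_over_1728G hΓ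
  rw [← hd] at h0 h1
  have h0' : ((Nat.card {P : HeightOneSpectrum (BG Γ) //
      algebraMap ℂ[X] (BG Γ) (X - C 0) ∈ P.asIdeal} : ℕ) : ℤ) * 3 = d := by exact_mod_cast h0
  have h1' : ((Nat.card {P : HeightOneSpectrum (BG Γ) //
      algebraMap ℂ[X] (BG Γ) (X - C 1728) ∈ P.asIdeal} : ℕ) : ℤ) * 2 = d := by exact_mod_cast h1
  linarith

end Fermat.Agent.S27lib.D4
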